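import Fermat.Agent.SelbergCLT.Selberg

/-!
# The tails of the sums over primes

The moments of a sum over primes `≤ B` are those of a Gaussian while `B ^ (3 l) ≤ T`, so the measure
of the set where it exceeds `a` is `≪ T l e^(-(1 + c) l)` if `l s ≤ a² e^(-c)`.
-/

set_option autoImplicit false

noncomputable section

namespace FA.ZetaUpper

open Finset MeasureTheory
open FA.SelbergCLT (primePoly sqMass diagPairs continuous_primePoly diagPairs_le
  norm_integral_pow_mul_conj_sub_le volume_lt_le)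
open scoped Real Nat ComplexConjugate

theorem factorial_le_exp (l : ℕ) (hl : 1 ≤ l) :
    (l ! : ℝ) ≤ Real.exp 1 * l * ((l : ℝ) / Real.exp 1) ^ l := by
  induction l, hl using Nat.le_induction with
  | base =>
    refine le_of_eq ?_
    simp [Real.exp_ne_zero]
  | succ l hl ih =>
    have hl0 : (0 : ℝ) < l := Nat.cast_pos.2 hl
    have key : Real.exp 1 * (l : ℝ) ^ (l + 1) ≤ ((l : ℝ) + 1) ^ (l + 1) := by
      have h2 : (l : ℝ) / ((l : ℝ) + 1) ≤ Real.exp (-(1 / ((l : ℝ) + 1))) := by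
        refine le_trans (le_of_eq ?_) (Real.add_one_le_exp _)
        field_simp
        ring
      have h3 := pow_le_pow_left₀ (by positivity) h2 (l + 1)
      rw [← Real.exp_nat_mul, div_pow, div_le_iff₀ (by positivity),
        show (((l + 1 : ℕ) : ℝ)) * -(1 / ((l : ℝ) + 1)) = -1 by push_cast; field_simp,
        Real.exp_neg, inv_mul_eq_div, le_div_iff₀ (Real.exp_pos 1)] at h3
      linarith
    rw [Nat.factorial_succ, Nat.cast_mul]
    push_cast
    calc ((l : ℝ) + 1) * l ! ≤ ((l : ℝ) + 1) * (Real.exp 1 * l * ((l : ℝ) / Real.exp 1) ^ l) :=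
          mul_le_mul_of_nonneg_left ih (by positivity)
      _ = ((l : ℝ) + 1) / Real.exp 1 ^ l * (Real.exp 1 * (l : ℝ) ^ (l + 1)) := by
          rw [div_pow]
          ring
      _ ≤ ((l : ℝ) + 1) / Real.exp 1 ^ l * ((l : ℝ) + 1) ^ (l + 1) :=
          mul_le_mul_of_nonneg_left key (by positivity)
      _ = _ := by
          rw [div_pow, pow_succ (Real.exp 1)]
          field_simp

/-- **The moments.** -/
theorem integral_norm_pow_le {P : Finset ℕ} {r : ℕ → ℝ} (hP : ∀ p ∈ P, p.Prime) {B : ℕ}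
    (hB : ∀ p ∈ P, p ≤ B) (hr : ∀ p ∈ P, 0 ≤ r p) (hr1 : ∀ p ∈ P, r p ≤ 1) {l : ℕ} (hl : 1 ≤ l)
    {s T : ℝ} (hs : 1 ≤ s) (hmass : sqMass P r ≤ s) (hT : 0 ≤ T) (hBT : (B : ℝ) ^ (3 * l) ≤ T) :
    ∫ t in T..2 * T, ‖primePoly P r t‖ ^ (2 * l) ≤ 5 * T * (l ! * s ^ l) := by
  have h := (Complex.re_le_norm _).trans (norm_integral_pow_mul_conj_sub_le hP hB hr l l T)
  have e : ∀ t : ℝ, primePoly P r t ^ l * conj (primePoly P r t) ^ l =
      ((‖primePoly P r t‖ ^ (2 * l) : ℝ) : ℂ) := fun t => by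
    rw [← mul_pow, Complex.mul_conj', pow_mul]
    push_cast
    rfl
  simp only [e] at h
  rw [intervalIntegral.integral_ofReal, Complex.sub_re, Complex.ofReal_re, Complex.ofReal_re] at h
  have hmass0 : 0 ≤ sqMass P r := sum_nonneg fun p _ => sq_nonneg _
  have hsum : ∑ p ∈ P, r p ≤ B := by
    refine (sum_le_card_nsmul _ _ (1 : ℝ) hr1).trans ?_
    rw [nsmul_one]
    refine Nat.cast_le.2 ?_
    simpa using card_le_card (show P ⊆ Finset.Icc 1 B from fun p hp =>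
      mem_Icc.2 ⟨(hP p hp).one_le, hB p hp⟩)
  have hone : (1 : ℝ) ≤ l ! * s ^ l := by
    have : (1 : ℝ) ≤ l ! := Nat.one_le_cast.2 (Nat.factorial_pos l)
    exact one_le_mul_of_one_le_of_one_le this (one_le_pow₀ hs)
  have h1 : diagPairs P r l l ≤ l ! * s ^ l :=
    (diagPairs_le hP l).trans
      (mul_le_mul_of_nonneg_left (pow_le_pow_left₀ hmass0 hmass l) (Nat.cast_nonneg _))
  have h2 : 2 * ((B : ℝ) ^ l + 1) * (∑ p ∈ P, r p) ^ (l + l) ≤ 4 * (B : ℝ) ^ (3 * l) := by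
    rcases Nat.eq_zero_or_pos B with rfl | hB0
    · have : P = ∅ := Finset.eq_empty_of_forall_notMem fun p hp =>
        (hP p hp).ne_zero (Nat.le_zero.1 (hB p hp))
      simp [this, zero_pow (show l + l ≠ 0 by omega), zero_pow (show 3 * l ≠ 0 by omega)]
    · have hB1 : (1 : ℝ) ≤ (B : ℝ) ^ l := one_le_pow₀ (Nat.one_le_cast.2 hB0)
      calc 2 * ((B : ℝ) ^ l + 1) * (∑ p ∈ P, r p) ^ (l + l)
          ≤ 2 * (2 * (B : ℝ) ^ l) * (B : ℝ) ^ (l + l) :=
            mul_le_mul (by linarith) (pow_le_pow_left₀ (sum_nonneg hr) hsum _)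
              (pow_nonneg (sum_nonneg hr) _) (by positivity)
        _ = _ := by ring
  nlinarith [mul_le_mul_of_nonneg_left h1 hT, mul_le_mul_of_nonneg_left hone hT]

/-- The same along `2 t`. -/
theorem integral_norm_pow_two_mul_le {P : Finset ℕ} {r : ℕ → ℝ} (hP : ∀ p ∈ P, p.Prime) {B : ℕ}
    (hB : ∀ p ∈ P, p ≤ B) (hr : ∀ p ∈ P, 0 ≤ r p) (hr1 : ∀ p ∈ P, r p ≤ 1) {l : ℕ} (hl : 1 ≤ l)
    {s T : ℝ} (hs : 1 ≤ s) (hmass : sqMass P r ≤ s) (hT : 0 ≤ T) (hBT : (B : ℝ) ^ (3 * l) ≤ T) :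
    ∫ t in T..2 * T, ‖primePoly P r (2 * t)‖ ^ (2 * l) ≤ 5 * T * (l ! * s ^ l) := by
  rw [intervalIntegral.integral_comp_mul_left (fun u => ‖primePoly P r u‖ ^ (2 * l)) two_ne_zero,
    smul_eq_mul, inv_mul_le_iff₀ two_pos]
  exact (integral_norm_pow_le hP hB hr hr1 hl hs hmass (by linarith) (by linarith)).trans_eq
    (by ring)

/-- **The tail.** -/
theorem volume_gt_le {g : ℝ → ℂ} (hg : Continuous g) {l : ℕ} (hl : 1 ≤ l) {s a c T : ℝ}
    (hs : 0 ≤ s) (hT : 0 ≤ T) (hI : ∫ t in T..2 * T, ‖g t‖ ^ (2 * l) ≤ 5 * T * (l ! * s ^ l))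
    (ha : 0 < a) (hla : l * s ≤ a ^ 2 * Real.exp (-c)) :
    volume {t ∈ Set.Icc T (2 * T) | a < ‖g t‖} ≤
      ENNReal.ofReal (5 * Real.exp 1 * T * l * Real.exp (-((1 + c) * l))) := by
  have hsub : {t ∈ Set.Icc T (2 * T) | a < ‖g t‖} ⊆
      {t ∈ Set.Icc T (2 * T) | a ^ (2 * l) < ‖g t‖ ^ (2 * l)} := fun t ht =>
    ⟨ht.1, pow_lt_pow_left₀ ht.2 ha.le (by omega)⟩
  refine (measure_mono hsub).trans ((volume_lt_le (hg.norm.pow _)
    (fun t => pow_nonneg (norm_nonneg _) _) (pow_pos ha _) hT).trans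
      (ENNReal.ofReal_le_ofReal ?_))
  rw [div_le_iff₀ (pow_pos ha _)]
  refine hI.trans ?_
  have hstep : (l ! : ℝ) * s ^ l ≤
      Real.exp 1 * l * (a ^ 2 * Real.exp (-c) / Real.exp 1) ^ l := by
    refine (mul_le_mul_of_nonneg_right (factorial_le_exp l hl) (pow_nonneg hs l)).trans ?_
    rw [mul_assoc _ _ (s ^ l), ← mul_pow, div_mul_eq_mul_div]
    exact mul_le_mul_of_nonneg_left (pow_le_pow_left₀ (by positivity)
      (div_le_div_of_nonneg_right hla (Real.exp_pos 1).le) l) (by positivity)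
  refine (mul_le_mul_of_nonneg_left hstep (by positivity)).trans (le_of_eq ?_)
  rw [mul_div_assoc, ← Real.exp_sub, mul_pow, ← Real.exp_nat_mul, ← pow_mul,
    show -((1 + c) * (l : ℝ)) = (l : ℝ) * (-c - 1) by ring]
  ring

end FA.ZetaUpper
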