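import Fermat.Agent.ZetaUpper.Inequality
import Fermat.Agent.ZetaUpper.PrimeTail
import Fermat.Agent.ErdosKac.Mertens

/-!
# The three sums over primes

Up to `O (1)` the sum in Soundararajan's inequality is a sum over the primes `≤ z`, one over
`z < p ≤ x` and one over the squares of primes, with variances `log log z`, `log (log x / log z)`
and `O (1)`.
-/

set_option autoImplicit false

noncomputable section

namespace FA.ZetaUpper

open Finset
open FA.ErdosKac (primesUpTo recipSum mem_primesUpTo exists_abs_recipSum_sub_le)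
open FA.SelbergCLT (primePoly sqMass)
open FA.Resonance (wave norm_wave)
open scoped Real ArithmeticFunction.vonMangoldt

/-- `log (x / n) / log x`. -/
def weight (x : ℝ) (n : ℕ) : ℝ := Real.log (x / n) / Real.log x

/-- The coefficient at `p`. -/
def lineCoeff (x : ℝ) (p : ℕ) : ℝ := weight x p * (p : ℝ) ^ (-(1 / 2 + 1 / Real.log x))

/-- The coefficient at `p²`. -/
def squareCoeff (x : ℝ) (p : ℕ) : ℝ :=
  weight x (p ^ 2) / 2 * ((p : ℝ) ^ (-(1 / 2 + 1 / Real.log x))) ^ 2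

/-- The primes in `(z, x]`. -/
def highPrimes (x z : ℝ) : Finset ℕ := primesUpTo ⌊x⌋₊ \ primesUpTo ⌊z⌋₊

variable {x : ℝ}

theorem weight_nonneg (hx : 3 ≤ x) {n : ℕ} (h1 : 1 ≤ n) (hn : (n : ℝ) ≤ x) :
    0 ≤ weight x n := by
  have h0 : (0 : ℝ) < n := Nat.cast_pos.2 h1
  exact div_nonneg (Real.log_nonneg ((one_le_div h0).2 hn)) (Real.log_nonneg (by linarith))

theorem weight_le_one (hx : 3 ≤ x) {n : ℕ} (h1 : 1 ≤ n) : weight x n ≤ 1 := by
  have h0 : (1 : ℝ) ≤ n := Nat.one_le_cast.2 h1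
  exact (div_le_one (Real.log_pos (by linarith))).2
    (Real.log_le_log (by positivity) (div_le_self (by linarith) h0))

theorem rpow_shift_le (hx : 3 ≤ x) {n : ℕ} (h1 : 1 ≤ n) :
    (n : ℝ) ^ (-(1 / 2 + 1 / Real.log x)) ≤ 1 / √(n : ℝ) := by
  rw [Real.sqrt_eq_rpow, one_div ((n : ℝ) ^ (1 / 2 : ℝ)), ← Real.rpow_neg (Nat.cast_nonneg n)]
  refine Real.rpow_le_rpow_of_exponent_le (Nat.one_le_cast.2 h1) ?_
  linarith [one_div_pos.2 (Real.log_pos (show 1 < x by linarith))]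

theorem prime_floor_sq_le (hx : 0 ≤ x) {p : ℕ} (hp : p ∈ primesUpTo ⌊√x⌋₊) :
    ((p ^ 2 : ℕ) : ℝ) ≤ x := by
  have h : (p : ℝ) ≤ √x :=
    (Nat.cast_le.2 (mem_primesUpTo.1 hp).2).trans (Nat.floor_le (Real.sqrt_nonneg x))
  rw [Nat.cast_pow, ← Real.sq_sqrt hx]
  exact pow_le_pow_left₀ (Nat.cast_nonneg p) h 2

theorem prime_le_self {z : ℝ} (hzx : z ≤ x) (hx : 0 ≤ x) {p : ℕ}
    (hp : p ∈ primesUpTo ⌊z⌋₊) : (p : ℝ) ≤ x :=
  (Nat.cast_le.2 ((mem_primesUpTo.1 hp).2.trans (Nat.floor_le_floor hzx))).trans (Nat.floor_le hx)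

theorem lineCoeff_mem (hx : 3 ≤ x) {p : ℕ} (h1 : 1 ≤ p) (hp : (p : ℝ) ≤ x) :
    0 ≤ lineCoeff x p ∧ lineCoeff x p ≤ 1 / √(p : ℝ) :=
  ⟨mul_nonneg (weight_nonneg hx h1 hp) (Real.rpow_nonneg (Nat.cast_nonneg p) _),
    (mul_le_of_le_one_left (Real.rpow_nonneg (Nat.cast_nonneg p) _) (weight_le_one hx h1)).trans
      (rpow_shift_le hx h1)⟩

theorem squareCoeff_mem (hx : 3 ≤ x) {p : ℕ} (h1 : 1 ≤ p) (hp : ((p ^ 2 : ℕ) : ℝ) ≤ x) :
    0 ≤ squareCoeff x p ∧ squareCoeff x p ≤ 1 / (p : ℝ) := by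
  have h2 : 1 ≤ p ^ 2 := Nat.one_le_pow _ _ h1
  refine ⟨mul_nonneg (div_nonneg (weight_nonneg hx h2 hp) two_pos.le) (sq_nonneg _), ?_⟩
  refine (mul_le_of_le_one_left (sq_nonneg _) (by linarith [weight_le_one hx h2])).trans
    ((pow_le_pow_left₀ (Real.rpow_nonneg (Nat.cast_nonneg p) _) (rpow_shift_le hx h1) 2).trans
      (le_of_eq ?_))
  rw [div_pow, Real.sq_sqrt (Nat.cast_nonneg p), one_pow]

theorem natCast_cpow_neg_line {n : ℕ} (hn : n ≠ 0) (a t : ℝ) :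
    (n : ℂ) ^ (-((a : ℂ) + t * Complex.I)) =
      (((n : ℝ) ^ (-a) : ℝ) : ℂ) * wave (-Real.log n) t := by
  rw [Complex.cpow_def_of_ne_zero (Nat.cast_ne_zero.2 hn), ← Complex.natCast_log,
    Real.rpow_def_of_pos (Nat.cast_pos.2 (Nat.pos_of_ne_zero hn)), Complex.ofReal_exp, wave,
    ← Complex.exp_add]
  push_cast
  ring_nf

/-- The term at `n`. -/
def lineTermAt (x t : ℝ) (n : ℕ) : ℂ :=
  ((Λ n / Real.log n * weight x n * (n : ℝ) ^ (-(1 / 2 + 1 / Real.log x)) : ℝ) : ℂ) *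
    wave (-Real.log n) t

/-- The higher prime powers. -/
theorem exists_higher_powers_le : ∃ C, 0 ≤ C ∧ ∀ (N : ℕ) (s : Finset ℕ),
    (∀ n ∈ s, n ≤ N ∧ (IsPrimePow n → ∃ q k, q.Prime ∧ 3 ≤ k ∧ q ^ k = n)) →
    ∑ n ∈ s, Λ n / Real.log n * (1 / √(n : ℝ)) ≤ C := by
  have hsum : Summable fun q : ℕ => (1 / √(q : ℝ)) ^ 3 := by
    refine (Real.summable_nat_rpow.2 (show -(3 / 2 : ℝ) < -1 by norm_num)).congr fun q => ?_
    rw [Real.sqrt_eq_rpow, one_div ((q : ℝ) ^ (1 / 2 : ℝ)), ← Real.rpow_neg (Nat.cast_nonneg q),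
      ← Real.rpow_natCast, ← Real.rpow_mul (Nat.cast_nonneg q)]
    norm_num
  refine ⟨4 * ∑' q : ℕ, (1 / √(q : ℝ)) ^ 3,
    mul_nonneg four_pos.le (tsum_nonneg fun q => by positivity), fun N s hs => ?_⟩
  have h0 : ∀ n : ℕ, 0 ≤ Λ n / Real.log n * (1 / √(n : ℝ)) := fun n =>
    mul_nonneg (div_nonneg ArithmeticFunction.vonMangoldt_nonneg (Real.log_natCast_nonneg n))
      (by positivity)
  rw [← sum_filter_of_ne (p := IsPrimePow) fun n _ hn => by
    by_contra h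
    exact hn (by rw [ArithmeticFunction.vonMangoldt_eq_zero_iff.2 h, zero_div, zero_mul])]
  calc ∑ n ∈ s.filter IsPrimePow, Λ n / Real.log n * (1 / √(n : ℝ))
      ≤ ∑ n ∈ (primesUpTo N ×ˢ Icc 3 N).image (fun y => y.1 ^ y.2),
          Λ n / Real.log n * (1 / √(n : ℝ)) := by
        refine sum_le_sum_of_subset_of_nonneg (fun n hn => ?_) fun n _ _ => h0 n
        rw [mem_filter] at hn
        obtain ⟨hnN, hex⟩ := hs n hn.1
        obtain ⟨q, k, hq, hk, rfl⟩ := hex hn.2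
        exact mem_image.2 ⟨(q, k), mem_product.2 ⟨mem_primesUpTo.2 ⟨hq,
          (Nat.le_self_pow (by omega) q).trans hnN⟩, mem_Icc.2 ⟨hk,
          (Nat.lt_pow_self hq.one_lt).le.trans hnN⟩⟩, rfl⟩
    _ ≤ ∑ y ∈ primesUpTo N ×ˢ Icc 3 N,
          Λ (y.1 ^ y.2) / Real.log ((y.1 ^ y.2 : ℕ) : ℝ) * (1 / √((y.1 ^ y.2 : ℕ) : ℝ)) :=
        sum_image_le_of_nonneg fun n _ => h0 n
    _ ≤ ∑ y ∈ primesUpTo N ×ˢ Icc 3 N, (1 / √(y.1 : ℝ)) ^ y.2 := by
        refine sum_le_sum fun y _ => (mul_le_of_le_one_left (by positivity)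
          (vonMangoldt_div_log_le_one _)).trans (le_of_eq ?_)
        rw [div_pow, one_pow, ← Real.sqrt_sq (pow_nonneg (Real.sqrt_nonneg (y.1 : ℝ)) y.2),
          ← pow_mul, mul_comm, pow_mul, Real.sq_sqrt (Nat.cast_nonneg _), Nat.cast_pow]
    _ ≤ ∑ q ∈ primesUpTo N, 4 * (1 / √(q : ℝ)) ^ 3 := by
        rw [sum_product]
        refine sum_le_sum fun q hq => ?_
        have h2 : (2 : ℝ) ≤ q := Nat.ofNat_le_cast.2 (mem_primesUpTo.1 hq).1.two_le
        have h3 : 1 / √(q : ℝ) ≤ 3 / 4 := by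
          have : (4 / 3 : ℝ) ≤ √(q : ℝ) := Real.le_sqrt_of_sq_le (by linarith)
          rw [div_le_iff₀ (by linarith)]
          linarith
        rw [← Ico_succ_right_eq_Icc]
        have h0' : 0 ≤ 1 / √(q : ℝ) := by positivity
        refine (geom_sum_Ico_le_of_lt_one h0' (by linarith)).trans ?_
        rw [div_le_iff₀ (by linarith)]
        nlinarith [pow_nonneg (show 0 ≤ 1 / √(q : ℝ) by positivity) 3]
    _ ≤ _ := by
        rw [← mul_sum]
        exact mul_le_mul_of_nonneg_left (hsum.sum_le_tsum _ fun q _ => by positivity) four_pos.le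

theorem norm_lineTermAt_le (hx : 3 ≤ x) (t : ℝ) {n : ℕ} (h1 : 1 ≤ n) (hn : (n : ℝ) ≤ x) :
    ‖lineTermAt x t n‖ ≤ Λ n / Real.log n * (1 / √(n : ℝ)) := by
  have h0 : 0 ≤ Λ n / Real.log n :=
    div_nonneg ArithmeticFunction.vonMangoldt_nonneg (Real.log_natCast_nonneg n)
  rw [lineTermAt, norm_mul, norm_wave, mul_one, Complex.norm_real, Real.norm_of_nonneg
    (mul_nonneg (mul_nonneg h0 (weight_nonneg hx h1 hn)) (Real.rpow_nonneg (Nat.cast_nonneg n) _)),
    mul_assoc]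
  exact mul_le_mul_of_nonneg_left ((mul_le_of_le_one_left
    (Real.rpow_nonneg (Nat.cast_nonneg n) _) (weight_le_one hx h1)).trans (rpow_shift_le hx h1)) h0

theorem lineTermAt_prime (x t : ℝ) {p : ℕ} (hp : p.Prime) :
    lineTermAt x t p = (lineCoeff x p : ℂ) * wave (-Real.log p) t := by
  rw [lineTermAt, lineCoeff, ArithmeticFunction.vonMangoldt_apply_prime hp,
    div_self (Real.log_pos (Nat.one_lt_cast.2 hp.one_lt)).ne', one_mul]

theorem lineTermAt_sq (x t : ℝ) {p : ℕ} (hp : p.Prime) :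
    lineTermAt x t (p ^ 2) = (squareCoeff x p : ℂ) * wave (-Real.log p) (2 * t) := by
  have hl : Real.log p ≠ 0 := (Real.log_pos (Nat.one_lt_cast.2 hp.one_lt)).ne'
  rw [lineTermAt, squareCoeff, ArithmeticFunction.vonMangoldt_apply_pow two_ne_zero,
    ArithmeticFunction.vonMangoldt_apply_prime hp, Nat.cast_pow, Real.log_pow,
    ← Real.rpow_natCast_mul (Nat.cast_nonneg p), mul_comm ((2 : ℕ) : ℝ) (-_),
    Real.rpow_mul (Nat.cast_nonneg p), Real.rpow_natCast]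
  refine congrArg₂ (· * ·) (congrArg _ ?_) ?_
  · push_cast
    field_simp
  · rw [wave, wave]
    push_cast
    ring_nf

/-- **The decomposition.** -/
theorem exists_logSum_re_le : ∃ C, 0 ≤ C ∧ ∀ x t : ℝ, 3 ≤ x →
    (logSum x (((1 / 2 + 1 / Real.log x : ℝ) : ℂ) + t * Complex.I)).re / Real.log x ≤
      (primePoly (primesUpTo ⌊x⌋₊) (lineCoeff x) t).re +
      (primePoly (primesUpTo ⌊√x⌋₊) (squareCoeff x) (2 * t)).re + C := by
  obtain ⟨C, hC, hhigh⟩ := exists_higher_powers_le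
  refine ⟨C, hC, fun x t hx => ?_⟩
  obtain ⟨N, hN⟩ : ∃ N, N = ⌊x⌋₊ := ⟨_, rfl⟩
  have e : logSum x (((1 / 2 + 1 / Real.log x : ℝ) : ℂ) + t * Complex.I) / (Real.log x : ℂ) =
      ∑ n ∈ Icc 1 N, lineTermAt x t n := by
    rw [logSum, sum_div, hN]
    refine sum_congr rfl fun n hn => ?_
    rw [mem_Icc] at hn
    rw [natCast_cpow_neg_line (by omega), lineTermAt, weight]
    push_cast
    ring
  rw [← Complex.div_ofReal_re, e]
  rw [← sum_filter_add_sum_filter_not (Icc 1 N) Nat.Prime]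
  have e1 : ∑ n ∈ (Icc 1 N).filter Nat.Prime, lineTermAt x t n =
      primePoly (primesUpTo ⌊x⌋₊) (lineCoeff x) t := by
    rw [hN, primePoly]
    exact sum_congr rfl fun p hp => lineTermAt_prime x t (mem_primesUpTo.1 hp).1
  have hsub : (primesUpTo ⌊√x⌋₊).image (· ^ 2) ⊆ (Icc 1 N).filter (fun n => ¬n.Prime) :=
    fun n hn => by
      obtain ⟨p, hp, rfl⟩ := mem_image.1 hn
      exact mem_filter.2 ⟨mem_Icc.2 ⟨Nat.one_le_pow _ _ (mem_primesUpTo.1 hp).1.pos,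
        hN ▸ Nat.le_floor (prime_floor_sq_le (by linarith) hp)⟩, Nat.Prime.not_prime_pow le_rfl⟩
  rw [e1, ← sum_sdiff hsub, sum_image fun p _ q _ h => Nat.pow_left_injective two_ne_zero h,
    sum_congr rfl fun p hp => lineTermAt_sq x t (mem_primesUpTo.1 hp).1]
  have hrest : ‖∑ n ∈ (Icc 1 N).filter (fun n => ¬n.Prime) \ (primesUpTo ⌊√x⌋₊).image (· ^ 2),
      lineTermAt x t n‖ ≤ C := by
    refine (norm_sum_le_of_le _ fun n hn => ?_).trans (hhigh N _ fun n hn => ?_)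
    · rw [mem_sdiff, mem_filter, mem_Icc] at hn
      exact norm_lineTermAt_le hx t hn.1.1.1
        ((Nat.cast_le.2 hn.1.1.2).trans (hN ▸ Nat.floor_le (by linarith)))
    · rw [mem_sdiff, mem_filter, mem_Icc] at hn
      refine ⟨hn.1.1.2, fun hpp => ?_⟩
      obtain ⟨q, k, hq, hk, rfl⟩ := (isPrimePow_nat_iff n).1 hpp
      refine ⟨q, k, hq, ?_, rfl⟩
      by_contra hk3
      rcases (show k = 1 ∨ k = 2 by omega) with rfl | rfl
      · exact hn.1.2 (by rwa [pow_one])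
      · refine hn.2 (mem_image.2 ⟨q, mem_primesUpTo.2 ⟨hq, Nat.le_floor ?_⟩, rfl⟩)
        refine Real.le_sqrt_of_sq_le ?_
        rw [← Nat.cast_pow]
        exact (Nat.cast_le.2 hn.1.1.2).trans (hN ▸ Nat.floor_le (by linarith))
  rw [← primePoly, Complex.add_re, Complex.add_re]
  linarith [(Complex.re_le_norm _).trans hrest]

/-- The decomposition at a point `z ≤ x`, in absolute values. -/
theorem exists_logSum_le : ∃ C, 0 ≤ C ∧ ∀ x z t : ℝ, 3 ≤ x → z ≤ x →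
    (logSum x (((1 / 2 + 1 / Real.log x : ℝ) : ℂ) + t * Complex.I)).re / Real.log x ≤
      ‖primePoly (primesUpTo ⌊z⌋₊) (lineCoeff x) t‖ +
      ‖primePoly (highPrimes x z) (lineCoeff x) t‖ +
      ‖primePoly (primesUpTo ⌊√x⌋₊) (squareCoeff x) (2 * t)‖ + C := by
  obtain ⟨C, hC, h⟩ := exists_logSum_re_le
  refine ⟨C, hC, fun x z t hx hzx => (h x t hx).trans ?_⟩
  have e : primePoly (primesUpTo ⌊x⌋₊) (lineCoeff x) t =
      primePoly (highPrimes x z) (lineCoeff x) t +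
        primePoly (primesUpTo ⌊z⌋₊) (lineCoeff x) t := by
    rw [highPrimes, primePoly, primePoly, primePoly, sum_sdiff fun p hp =>
      mem_primesUpTo.2 ⟨(mem_primesUpTo.1 hp).1,
        (mem_primesUpTo.1 hp).2.trans (Nat.floor_le_floor hzx)⟩]
  rw [e, Complex.add_re]
  linarith [Complex.re_le_norm (primePoly (highPrimes x z) (lineCoeff x) t),
    Complex.re_le_norm (primePoly (primesUpTo ⌊z⌋₊) (lineCoeff x) t),
    Complex.re_le_norm (primePoly (primesUpTo ⌊√x⌋₊) (squareCoeff x) (2 * t))]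

theorem lineCoeff_sq_le (hx : 3 ≤ x) {p : ℕ} (hp : p.Prime) (hpx : (p : ℝ) ≤ x) :
    lineCoeff x p ^ 2 ≤ (p : ℝ)⁻¹ := by
  obtain ⟨h1, h2⟩ := lineCoeff_mem hx hp.one_le hpx
  refine (pow_le_pow_left₀ h1 h2 2).trans (le_of_eq ?_)
  rw [div_pow, Real.sq_sqrt (Nat.cast_nonneg p), one_pow, one_div]

/-- `∑ 1 / p` over `p ≤ n` and over `(z, x]`. -/
theorem exists_recip_le : ∃ C, 0 ≤ C ∧
    (∀ (n : ℕ) (y : ℝ), 3 ≤ y → (n : ℝ) ≤ y → recipSum n ≤ Real.log (Real.log y) + C) ∧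
    (∀ x z L : ℝ, 3 ≤ x → 0 < z → z ≤ x → 1 ≤ L → Real.log x ≤ L * Real.log z →
      ∑ p ∈ highPrimes x z, (p : ℝ)⁻¹ ≤ Real.log L + C) := by
  obtain ⟨C, hC⟩ := exists_abs_recipSum_sub_le
  have hC0 : 0 ≤ C := (abs_nonneg _).trans (hC 2 le_rfl)
  have hupper : ∀ (n : ℕ) (y : ℝ), 3 ≤ y → (n : ℝ) ≤ y →
      recipSum n ≤ Real.log (Real.log y) + C := fun n y hy hny => by
    rcases lt_or_ge n 2 with hn | hn
    · have : primesUpTo n = ∅ := eq_empty_of_forall_notMem fun p hp => by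
        have := mem_primesUpTo.1 hp
        have := this.1.two_le
        omega
      have h1 : 1 ≤ Real.log y := by
        rw [← Real.log_exp 1]
        exact Real.log_le_log (Real.exp_pos 1) (le_trans Real.exp_one_lt_three.le hy)
      simp only [recipSum, this, sum_empty]
      linarith [Real.log_nonneg h1]
    · refine (le_of_abs_le (hC n hn)|> fun h => show recipSum n ≤ Real.log (Real.log n) + C by
        linarith).trans ?_
      have hl : 0 < Real.log n := Real.log_pos (Nat.one_lt_cast.2 (by omega))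
      linarith [Real.log_le_log hl (Real.log_le_log (Nat.cast_pos.2 (by omega)) hny)]
  refine ⟨C + C + 1, by positivity, fun n y hy hny => (hupper n y hy hny).trans (by linarith),
    fun x z L hx hz hzx hL hlog => ?_⟩
  have hlx : 0 < Real.log x := Real.log_pos (by linarith)
  have hup := hupper _ x hx (Nat.floor_le (by linarith))
  rcases lt_or_ge z 2 with h2 | h2
  · refine (sum_le_sum_of_subset_of_nonneg sdiff_subset fun p _ _ => by positivity).trans
      (hup.trans ?_)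
    have hlz : Real.log z ≤ 1 := (Real.log_le_sub_one_of_pos hz).trans (by linarith)
    linarith [Real.log_le_log hlx (hlog.trans (mul_le_of_le_one_right (by linarith) hlz))]
  · have hn : 2 ≤ ⌊z⌋₊ := Nat.le_floor (by exact_mod_cast h2)
    have hlow := neg_le_of_abs_le (hC _ hn)
    have hlz : 0 < Real.log z := Real.log_pos (by linarith)
    have hlf : 0 < Real.log (⌊z⌋₊ : ℝ) := Real.log_pos (Nat.one_lt_cast.2 (by omega))
    have hfl : Real.log z ≤ 2 * Real.log (⌊z⌋₊ : ℝ) := by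
      rw [show 2 * Real.log (⌊z⌋₊ : ℝ) = Real.log ((⌊z⌋₊ : ℝ) ^ 2) by
        rw [Real.log_pow]; norm_num]
      refine Real.log_le_log hz ?_
      have : (2 : ℝ) ≤ (⌊z⌋₊ : ℝ) := Nat.ofNat_le_cast.2 hn
      nlinarith [Nat.lt_floor_add_one z]
    have hll : Real.log (Real.log x) ≤ Real.log L + 1 + Real.log (Real.log (⌊z⌋₊ : ℝ)) := by
      refine (Real.log_le_log hlx (hlog.trans (mul_le_mul_of_nonneg_left hfl
        (by linarith)))).trans (le_of_eq_of_le (by rw [← mul_assoc]) ?_)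
      rw [Real.log_mul (by positivity) hlf.ne', Real.log_mul (by linarith) two_ne_zero]
      linarith [Real.log_le_sub_one_of_pos two_pos]
    have e := sum_sdiff (f := fun p : ℕ => (p : ℝ)⁻¹)
      (show primesUpTo ⌊z⌋₊ ⊆ primesUpTo ⌊x⌋₊ from fun p hp => mem_primesUpTo.2
        ⟨(mem_primesUpTo.1 hp).1, (mem_primesUpTo.1 hp).2.trans (Nat.floor_le_floor hzx)⟩)
    rw [recipSum] at hup hlow
    rw [highPrimes]
    linarith

/-- **The variances.** -/
theorem exists_sqMass_le : ∃ C, 0 ≤ C ∧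
    (∀ x z y : ℝ, 3 ≤ x → z ≤ x → z ≤ y → 3 ≤ y →
      sqMass (primesUpTo ⌊z⌋₊) (lineCoeff x) ≤ Real.log (Real.log y) + C) ∧
    (∀ x z L : ℝ, 3 ≤ x → 0 < z → z ≤ x → 1 ≤ L → Real.log x ≤ L * Real.log z →
      sqMass (highPrimes x z) (lineCoeff x) ≤ Real.log L + C) ∧
    (∀ x : ℝ, 3 ≤ x → sqMass (primesUpTo ⌊√x⌋₊) (squareCoeff x) ≤ C) := by
  obtain ⟨C, hC0, hupper, hdiff⟩ := exists_recip_le
  have hsum : Summable fun q : ℕ => (1 / (q : ℝ)) ^ 2 :=
    (Real.summable_one_div_nat_pow.2 one_lt_two).congr fun q => by rw [div_pow, one_pow]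
  obtain ⟨S, hS⟩ : ∃ S, S = ∑' q : ℕ, (1 / (q : ℝ)) ^ 2 := ⟨_, rfl⟩
  have hS0 : 0 ≤ S := hS ▸ tsum_nonneg fun q => sq_nonneg _
  refine ⟨C + S, by positivity, fun x z y hx hzx hzy hy => ?_,
    fun x z L hx hz hzx hL hlog => ?_, fun x hx => ?_⟩
  · refine (sum_le_sum fun p hp => lineCoeff_sq_le hx (mem_primesUpTo.1 hp).1
      (prime_le_self hzx (by linarith) hp)).trans ((hupper _ y hy ?_).trans (by linarith))
    exact (Nat.cast_le.2 (Nat.floor_le_floor hzy)).trans (Nat.floor_le (by linarith))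
  · refine (sum_le_sum fun p hp => lineCoeff_sq_le hx (mem_primesUpTo.1 (sdiff_subset hp)).1
      (prime_le_self le_rfl (by linarith) (sdiff_subset hp))).trans
        ((hdiff x z L hx hz hzx hL hlog).trans (by linarith))
  · refine (sum_le_sum (g := fun p : ℕ => (1 / (p : ℝ)) ^ 2) fun p hp => ?_).trans
      ((hsum.sum_le_tsum _ fun q _ => sq_nonneg _).trans (by rw [← hS]; linarith))
    obtain ⟨h1, h2⟩ := squareCoeff_mem hx (mem_primesUpTo.1 hp).1.one_le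
      (prime_floor_sq_le (by linarith) hp)
    exact pow_le_pow_left₀ h1 h2 2

end FA.ZetaUpper
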