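import Fermat.Agent.ZetaUpper.LargeValues
import Fermat.Agent.SecondMoment.Main

/-!
# Soundararajan's bound for the moments

Summing the measures of the large values over the integers `V`: if the zeros of `ξ` have real part
`1/2` then `∫_T^{2T} |ζ (1/2 + it)| ^ (2 k) ≪ T (log T) ^ (k² + ε)`.
-/

set_option autoImplicit false

noncomputable section

namespace FA.ZetaUpper

open Filter MeasureTheory
open FA.SecondMoment (continuous_zeta_line)
open scoped Real Topology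

theorem measurableSet_largeSet (T : ℝ) (V : ℕ) : MeasurableSet (largeSet T V) :=
  measurableSet_Icc.inter
    (measurableSet_le measurable_const continuous_zeta_line.norm.measurable)

/-- The term at `V`. -/
theorem exp_mul_tail_le {k b L : ℝ} {m : ℕ} (hb : 0 < b) (hm : 2 * k + 1 ≤ m) (hL : 0 < L)
    (V : ℕ) :
    Real.exp (2 * k * V) * (Real.exp (-(b * (V : ℝ) ^ 2 / L)) + Real.exp (-((m : ℝ) * V))) ≤
      (if (V : ℝ) ≤ m / b * L then Real.exp (k ^ 2 / b * L) else 0) +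
        2 * Real.exp (-(V : ℝ)) := by
  have hV : (0 : ℝ) ≤ V := Nat.cast_nonneg V
  have h2 : Real.exp (2 * k * V) * Real.exp (-((m : ℝ) * V)) ≤ Real.exp (-(V : ℝ)) := by
    rw [← Real.exp_add, Real.exp_le_exp]
    nlinarith
  rw [mul_add]
  split_ifs with h
  · have h1 : Real.exp (2 * k * V) * Real.exp (-(b * (V : ℝ) ^ 2 / L)) ≤
        Real.exp (k ^ 2 / b * L) := by
      rw [← Real.exp_add, Real.exp_le_exp]
      have : k ^ 2 / b * L - (2 * k * V + -(b * (V : ℝ) ^ 2 / L)) =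
          (b * V - k * L) ^ 2 / (b * L) := by
        field_simp
        ring
      have : 0 ≤ (b * V - k * L) ^ 2 / (b * L) := by positivity
      linarith
    linarith [Real.exp_pos (-(V : ℝ))]
  · have h1 : Real.exp (2 * k * V) * Real.exp (-(b * (V : ℝ) ^ 2 / L)) ≤
        Real.exp (-(V : ℝ)) := by
      refine le_trans (mul_le_mul_of_nonneg_left ?_ (Real.exp_pos _).le) h2
      rw [Real.exp_le_exp, neg_le_neg_iff, le_div_iff₀ hL]
      rw [not_le, div_mul_eq_mul_div, div_lt_iff₀ hb] at h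
      nlinarith [mul_le_mul_of_nonneg_left h.le hV]
    linarith

/-- **Soundararajan's theorem.** -/
theorem exists_moment_upper (hRH : Critical) {k ε : ℝ} (hk : 0 ≤ k) (hε : 0 < ε) :
    ∃ C, 0 < C ∧ ∀ᶠ T : ℝ in atTop,
      ∫ t in T..2 * T, ‖riemannZeta (1 / 2 + t * Complex.I)‖ ^ (2 * k) ≤
        C * T * Real.log T ^ (k ^ 2 + ε) := by
  obtain ⟨δ, hδdef⟩ : ∃ δ, δ = min (1 / 26) (ε / (52 * (k ^ 2 + 1))) := ⟨_, rfl⟩
  have hδ : 0 < δ := hδdef ▸ lt_min (by norm_num) (by positivity)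
  have hδ26 : δ ≤ 1 / 26 := hδdef ▸ min_le_left _ _
  have hδε : 52 * (k ^ 2 + 1) * δ ≤ ε := by
    rw [← le_div_iff₀' (by positivity)]
    exact hδdef ▸ min_le_right _ _
  obtain ⟨m, hm⟩ : ∃ m : ℕ, m = ⌈2 * k⌉₊ + 1 := ⟨_, rfl⟩
  have hm' : 2 * k + 1 ≤ m := by
    rw [hm, Nat.cast_add_one]
    linarith [Nat.le_ceil (2 * k)]
  obtain ⟨C₁, hC₁, hlarge⟩ := exists_largeSet_le hRH hδ (by linarith) m
  obtain ⟨b, hb⟩ : ∃ b, b = 1 - 13 * δ := ⟨_, rfl⟩
  have hb2 : 1 / 2 ≤ b := by rw [hb]; linarith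
  have hkb : k ^ 2 / b ≤ k ^ 2 + ε / 2 := by
    rw [div_le_iff₀ (by linarith)]
    have : 13 * δ * k ^ 2 ≤ ε / 4 := by nlinarith
    rw [hb]
    nlinarith
  obtain ⟨S, hS⟩ : ∃ S, S = ∑' n : ℕ, Real.exp (-(n : ℝ)) := ⟨_, rfl⟩
  have hS0 : 0 ≤ S := hS ▸ tsum_nonneg fun n => (Real.exp_pos _).le
  obtain ⟨C, hC⟩ : ∃ C, C = Real.exp (4 * k) +
      C₁ * Real.exp (2 * k) * ((m : ℝ) / b * (4 / ε) + 1 + 2 * S) := ⟨_, rfl⟩
  have hC0 : 0 < C := by
    have : 0 < b := by linarith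
    rw [hC]
    positivity
  refine ⟨C, hC0, ?_⟩
  filter_upwards [hlarge, eventually_ge_atTop (4 : ℝ),
    (Real.tendsto_log_atTop.comp Real.tendsto_log_atTop).eventually_ge_atTop 1]
    with T hT hT4 hL1
  obtain ⟨L, hL⟩ : ∃ L, L = Real.log (Real.log T) := ⟨_, rfl⟩
  simp only [Function.comp] at hL1
  rw [← hL] at hL1 hT
  have hT0 : 0 < T := by linarith
  have hpow : Real.log T ^ (k ^ 2 + ε) = Real.exp ((k ^ 2 + ε) * L) := by
    rw [Real.rpow_def_of_pos (Real.log_pos (by linarith)), ← hL, mul_comm]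
  rw [hpow]
  obtain ⟨B, hB⟩ := (isCompact_Icc (a := T) (b := 2 * T)).exists_bound_of_continuousOn
    continuous_zeta_line.norm.continuousOn
  simp only [Real.norm_eq_abs, abs_norm] at hB
  obtain ⟨V₀, hV₀⟩ : ∃ V₀ : ℕ, V₀ = ⌈δ * L⌉₊ := ⟨_, rfl⟩
  obtain ⟨N, hN⟩ : ∃ N : ℕ, N = ⌈B⌉₊ := ⟨_, rfl⟩
  obtain ⟨g, hg⟩ : ∃ g : ℕ → ℝ, g = fun V : ℕ => Real.exp (2 * k * ((V : ℝ) + 1)) := ⟨_, rfl⟩
  have hpt : ∀ t ∈ Set.Icc T (2 * T), ‖riemannZeta (1 / 2 + t * Complex.I)‖ ^ (2 * k) ≤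
      g V₀ + ∑ V ∈ Finset.Ioc V₀ N, (largeSet T V).indicator (fun _ => g V) t := by
    intro t ht
    have hsum : 0 ≤ ∑ V ∈ Finset.Ioc V₀ N, (largeSet T V).indicator (fun _ => g V) t :=
      Finset.sum_nonneg fun V _ => Set.indicator_nonneg (fun _ _ => hg ▸ (Real.exp_pos _).le) t
    rcases le_or_gt ‖riemannZeta (1 / 2 + t * Complex.I)‖ (Real.exp ((V₀ : ℝ) + 1)) with h | h
    · refine le_add_of_le_of_nonneg ((Real.rpow_le_rpow (norm_nonneg _) h (by linarith)).trans_eq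
        ?_) hsum
      rw [hg, ← Real.exp_mul, mul_comm]
    obtain ⟨w, hw⟩ : ∃ w, w = Real.log ‖riemannZeta (1 / 2 + t * Complex.I)‖ := ⟨_, rfl⟩
    have hz : 0 < ‖riemannZeta (1 / 2 + t * Complex.I)‖ := (Real.exp_pos _).trans h
    have hwV : (V₀ : ℝ) + 1 < w := hw ▸ (Real.lt_log_iff_exp_lt hz).2 h
    have hexp : Real.exp w = ‖riemannZeta (1 / 2 + t * Complex.I)‖ := hw ▸ Real.exp_log hz
    have hw0 : 0 ≤ w := by linarith [(Nat.cast_nonneg V₀ : (0 : ℝ) ≤ V₀)]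
    have hmem : ⌊w⌋₊ ∈ Finset.Ioc V₀ N := by
      refine Finset.mem_Ioc.2 ⟨Nat.lt_of_lt_of_le (Nat.lt_succ_self V₀) (Nat.le_floor ?_),
        hN ▸ (Nat.floor_le_floor ?_).trans (Nat.floor_le_ceil B)⟩
      · push_cast
        linarith
      · rw [hw]
        exact (Real.log_le_self hz.le).trans (hB t ht)
    refine le_add_of_nonneg_of_le (hg ▸ (Real.exp_pos _).le) (le_trans ?_
      (Finset.single_le_sum (fun V _ => Set.indicator_nonneg
        (fun _ _ => hg ▸ (Real.exp_pos _).le) t) hmem))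
    rw [Set.indicator_of_mem (show t ∈ largeSet T ⌊w⌋₊ from
      ⟨ht, hexp ▸ Real.exp_le_exp.2 (Nat.floor_le hw0)⟩), ← hexp, ← Real.exp_mul, hg,
      Real.exp_le_exp, mul_comm w]
    exact mul_le_mul_of_nonneg_left (Nat.lt_floor_add_one w).le (by linarith)
  have hcont : Continuous fun t : ℝ => ‖riemannZeta (1 / 2 + t * Complex.I)‖ ^ (2 * k) :=
    continuous_zeta_line.norm.rpow_const fun _ => Or.inr (by linarith)
  have hfin : volume (Set.Icc T (2 * T)) ≠ ⊤ := by simp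
  have hint : ∀ V, IntegrableOn ((largeSet T V).indicator fun _ => g V) (Set.Icc T (2 * T)) :=
    fun V => (integrableOn_const hfin).indicator (measurableSet_largeSet T V)
  rw [intervalIntegral.integral_of_le (by linarith), ← integral_Icc_eq_integral_Ioc]
  have hc : IntegrableOn (fun _ => g V₀) (Set.Icc T (2 * T)) := integrableOn_const hfin
  refine (setIntegral_mono_on hcont.integrableOn_Icc (hc.fun_add
    (integrable_finsetSum _ fun V _ => hint V)) measurableSet_Icc hpt).trans ?_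
  rw [integral_add hc (integrable_finsetSum _ fun V _ => hint V),
    integral_finsetSum _ fun V _ => hint V]
  simp only [setIntegral_indicator (measurableSet_largeSet T _), setIntegral_const, smul_eq_mul,
    Real.volume_real_Icc]
  rw [max_eq_left (by linarith), show 2 * T - T = T by ring]
  have hterm : ∀ V ∈ Finset.Ioc V₀ N,
      volume.real (Set.Icc T (2 * T) ∩ largeSet T V) * g V ≤ C₁ * T * Real.exp (2 * k) *
        ((if (V : ℝ) ≤ m / b * L then Real.exp (k ^ 2 / b * L) else 0) +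
          2 * Real.exp (-(V : ℝ))) := by
    intro V hV
    rw [Finset.mem_Ioc] at hV
    have hδV : δ * L ≤ V := (hV₀ ▸ Nat.le_ceil (δ * L) : δ * L ≤ V₀).trans
      (Nat.cast_le.2 hV.1.le)
    have h := ENNReal.toReal_le_of_le_ofReal (by positivity)
      ((measure_mono (Set.inter_subset_right (s := Set.Icc T (2 * T)))).trans (hT V hδV))
    rw [← hb] at h
    refine (mul_le_mul_of_nonneg_right h (hg ▸ (Real.exp_pos _).le)).trans ?_
    rw [hg]
    simp only
    rw [show 2 * k * ((V : ℝ) + 1) = 2 * k * V + 2 * k by ring, Real.exp_add]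
    refine le_trans (le_of_eq (by ring)) (mul_le_mul_of_nonneg_left
      (exp_mul_tail_le (k := k) (b := b) (L := L) (m := m) (by linarith) hm' (by linarith) V)
      (by positivity))
  refine (add_le_add le_rfl (Finset.sum_le_sum hterm)).trans ?_
  rw [← Finset.mul_sum, Finset.sum_add_distrib, ← Finset.mul_sum, ← Finset.sum_filter,
    Finset.sum_const, nsmul_eq_mul]
  have hcard : (((Finset.Ioc V₀ N).filter fun V : ℕ => (V : ℝ) ≤ m / b * L).card : ℝ) ≤
      (m : ℝ) / b * L + 1 := by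
    have hρ : 0 ≤ (m : ℝ) / b * L := by
      have : 0 < b := by linarith
      positivity
    refine (Nat.cast_le.2 (Finset.card_le_card (t := Finset.range (⌊(m : ℝ) / b * L⌋₊ + 1))
      fun V hV => ?_)).trans ?_
    · exact Finset.mem_range.2 (Nat.lt_succ_of_le (Nat.le_floor (Finset.mem_filter.1 hV).2))
    · rw [Finset.card_range, Nat.cast_add_one]
      linarith [Nat.floor_le hρ]
  have hgeo : ∑ V ∈ Finset.Ioc V₀ N, Real.exp (-(V : ℝ)) ≤ S :=
    hS ▸ Real.summable_exp_neg_nat.sum_le_tsum _ fun n _ => (Real.exp_pos _).le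
  have hE : 1 ≤ Real.exp ((k ^ 2 + ε) * L) := Real.one_le_exp (by positivity)
  have hfirst : g V₀ ≤ Real.exp (4 * k) * Real.exp ((k ^ 2 + ε) * L) := by
    rw [hg, ← Real.exp_add]
    refine Real.exp_le_exp.2 ?_
    have h1 : (V₀ : ℝ) ≤ δ * L + 1 :=
      hV₀ ▸ (Nat.ceil_lt_add_one (show 0 ≤ δ * L by positivity)).le
    have h2 : 2 * k * (δ * L) ≤ (k ^ 2 + ε) * L := by
      rw [← mul_assoc]
      exact mul_le_mul_of_nonneg_right (by nlinarith [sq_nonneg (k - 1)]) (by linarith)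
    nlinarith [mul_le_mul_of_nonneg_left h1 hk]
  have hmain : ((m : ℝ) / b * L + 1) * Real.exp (k ^ 2 / b * L) ≤
      ((m : ℝ) / b * (4 / ε) + 1) * Real.exp ((k ^ 2 + ε) * L) := by
    have hb0 : 0 < b := by linarith
    have h1 : L ≤ 4 / ε * Real.exp (ε / 4 * L) := by
      rw [div_mul_eq_mul_div, le_div_iff₀ hε]
      nlinarith [Real.add_one_le_exp (ε / 4 * L)]
    have h2 : 1 ≤ Real.exp (ε / 4 * L) := Real.one_le_exp (by positivity)
    have h3 : Real.exp (ε / 4 * L) * Real.exp (k ^ 2 / b * L) ≤ Real.exp ((k ^ 2 + ε) * L) := by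
      rw [← Real.exp_add, Real.exp_le_exp, ← add_mul]
      exact mul_le_mul_of_nonneg_right (by linarith) (by linarith)
    calc ((m : ℝ) / b * L + 1) * Real.exp (k ^ 2 / b * L)
        ≤ ((m : ℝ) / b * (4 / ε * Real.exp (ε / 4 * L)) + Real.exp (ε / 4 * L)) *
            Real.exp (k ^ 2 / b * L) := mul_le_mul_of_nonneg_right
              (add_le_add (mul_le_mul_of_nonneg_left h1 (by positivity)) h2) (Real.exp_pos _).le
      _ = ((m : ℝ) / b * (4 / ε) + 1) * (Real.exp (ε / 4 * L) * Real.exp (k ^ 2 / b * L)) := by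
          ring
      _ ≤ _ := mul_le_mul_of_nonneg_left h3 (by positivity)
  have hrest := mul_le_mul_of_nonneg_right hcard (Real.exp_pos (k ^ 2 / b * L)).le
  have hS' : 2 * ∑ V ∈ Finset.Ioc V₀ N, Real.exp (-(V : ℝ)) ≤
      2 * S * Real.exp ((k ^ 2 + ε) * L) :=
    (mul_le_mul_of_nonneg_left hgeo two_pos.le).trans (le_mul_of_one_le_right (by positivity) hE)
  have hall := mul_le_mul_of_nonneg_left (add_le_add (hrest.trans hmain) hS')
    (show 0 ≤ C₁ * T * Real.exp (2 * k) by positivity)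
  have hall₁ := mul_le_mul_of_nonneg_left hfirst hT0.le
  refine (add_le_add hall₁ hall).trans (le_of_eq ?_)
  rw [hC]
  ring

/-- **The measure of the large values.** -/
theorem exists_measure_large_le (hRH : Critical) {v ε : ℝ} (hv : 0 < v) (hε : 0 < ε) :
    ∃ C, 0 < C ∧ ∀ᶠ T : ℝ in atTop,
      volume {t ∈ Set.Icc T (2 * T) |
          v * Real.log (Real.log T) < Real.log ‖riemannZeta (1 / 2 + t * Complex.I)‖} ≤
        ENNReal.ofReal (C * T * Real.log T ^ (-v ^ 2 + ε)) := by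
  obtain ⟨δ, hδdef⟩ : ∃ δ, δ = min (1 / 13) (min (v / 2) (ε / (13 * v ^ 2 + 1))) := ⟨_, rfl⟩
  have hδ : 0 < δ := hδdef ▸ lt_min (by norm_num) (lt_min (by positivity) (by positivity))
  have hδv : δ ≤ v / 2 := hδdef ▸ (min_le_right _ _).trans (min_le_left _ _)
  have hδε : (13 * v ^ 2 + 1) * δ ≤ ε := by
    rw [← le_div_iff₀' (by positivity)]
    exact hδdef ▸ (min_le_right _ _).trans (min_le_right _ _)
  have hδ13 : 13 * δ ≤ 1 := by linarith [(hδdef ▸ min_le_left _ _ : δ ≤ 1 / 13)]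
  obtain ⟨C₁, hC₁, hlarge⟩ := exists_largeSet_le hRH hδ hδ13 ⌈v⌉₊
  refine ⟨(C₁ + 1) * (2 * Real.exp (2 * v)), by positivity, ?_⟩
  filter_upwards [hlarge, eventually_ge_atTop (4 : ℝ),
    (Real.tendsto_log_atTop.comp Real.tendsto_log_atTop).eventually_ge_atTop (max 1 (2 / v))]
    with T hT hT4 hL1
  obtain ⟨L, hL⟩ : ∃ L, L = Real.log (Real.log T) := ⟨_, rfl⟩
  simp only [Function.comp] at hL1
  rw [← hL, max_le_iff, div_le_iff₀ hv] at hL1
  rw [← hL] at hT ⊢
  have hT0 : 0 < T := by linarith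
  have hpow : Real.log T ^ (-v ^ 2 + ε) = Real.exp ((-v ^ 2 + ε) * L) := by
    rw [Real.rpow_def_of_pos (Real.log_pos (by linarith)), ← hL, mul_comm]
  have hvL : 0 ≤ v * L := mul_nonneg hv.le (by linarith [hL1.1])
  obtain ⟨V, hV⟩ : ∃ V : ℕ, V = ⌊v * L⌋₊ := ⟨_, rfl⟩
  have hVhi : (V : ℝ) ≤ v * L := hV ▸ Nat.floor_le hvL
  have hVlo : v * L - 1 ≤ V := by
    linarith [hV ▸ Nat.lt_floor_add_one (v * L)]
  have hδV : δ * L ≤ V := by
    nlinarith [mul_le_mul_of_nonneg_right hδv (show 0 ≤ L by linarith [hL1.1]), hL1.2]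
  refine (measure_mono (t := largeSet T V) ?_).trans ((hT V hδV).trans
    (ENNReal.ofReal_le_ofReal ?_))
  · rintro t ⟨ht, hlog⟩
    refine ⟨ht, ?_⟩
    rcases eq_or_lt_of_le (norm_nonneg (riemannZeta (1 / 2 + t * Complex.I))) with h0 | h0
    · rw [← h0, Real.log_zero] at hlog
      linarith
    · exact (Real.exp_le_exp.2 (hVhi.trans hlog.le)).trans (Real.exp_log h0).le
  rw [hpow]
  have hV0 : (0 : ℝ) ≤ V := Nat.cast_nonneg V
  have hL0 : 0 < L := by linarith [hL1.1]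
  have h1 : Real.exp (-((1 - 13 * δ) * (V : ℝ) ^ 2 / L)) ≤
      Real.exp (2 * v) * Real.exp ((-v ^ 2 + ε) * L) := by
    rw [← Real.exp_add, Real.exp_le_exp, ← sub_nonneg]
    have hsq : (v * L - 1) ^ 2 ≤ (V : ℝ) ^ 2 :=
      pow_le_pow_left₀ (by nlinarith [hL1.2]) hVlo 2
    have h2 : v ^ 2 * L - 2 * v ≤ (V : ℝ) ^ 2 / L := by
      rw [le_div_iff₀ hL0]
      nlinarith
    have h3 : (1 - 13 * δ) * (v ^ 2 * L - 2 * v) ≤ (1 - 13 * δ) * ((V : ℝ) ^ 2 / L) :=
      mul_le_mul_of_nonneg_left h2 (by linarith)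
    rw [mul_div_assoc]
    nlinarith [mul_le_mul_of_nonneg_right hδε hL0.le, mul_nonneg (mul_nonneg hδ.le hv.le) hL0.le]
  have h2 : Real.exp (-((⌈v⌉₊ : ℕ) : ℝ) * V) ≤
      Real.exp (2 * v) * Real.exp ((-v ^ 2 + ε) * L) := by
    rw [← Real.exp_add, Real.exp_le_exp]
    nlinarith [mul_le_mul_of_nonneg_right (Nat.le_ceil v) hV0,
      mul_le_mul_of_nonneg_left hVlo hv.le, mul_nonneg hε.le hL0.le]
  rw [neg_mul] at h2
  calc C₁ * T * (Real.exp (-((1 - 13 * δ) * (V : ℝ) ^ 2 / L)) +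
        Real.exp (-((⌈v⌉₊ : ℝ) * V)))
      ≤ (C₁ + 1) * T * (Real.exp (2 * v) * Real.exp ((-v ^ 2 + ε) * L) +
          Real.exp (2 * v) * Real.exp ((-v ^ 2 + ε) * L)) :=
        mul_le_mul (mul_le_mul_of_nonneg_right (by linarith) hT0.le) (add_le_add h1 h2)
          (by positivity) (by positivity)
    _ = _ := by ring

end FA.ZetaUpper
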