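import Fermat.Agent.ZetaUpper.Kernel
import Fermat.Agent.PairCorr.Formula

/-!
# The smoothed explicit formula for `ζ'/ζ`

`∑_{n ≤ x} Λ n n^(-s) log (x/n) = log x (-ζ'/ζ) s + (-ζ'/ζ)' s + x^(1-s)/(1-s)²
  - ∑ x^(ρ-s)/(ρ-s)² + O (1)` for `1/2 ≤ re s ≤ 7/4`, `x ≥ 1`. No hypothesis on the zeros.
-/

set_option autoImplicit false

noncomputable section

namespace FA.ZetaUpper

open Complex Filter Topology MeasureTheory Set FA.RiemannMangoldt FA.ExplicitFormula FA.ZeroFree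
open FA.PairCorrelation (log_sub_le exists_negLogDeriv_horizontal exists_negLogDeriv_left
  exists_logDeriv_right)
open scoped Real ArithmeticFunction.vonMangoldt

/-- The integrand. -/
def kerFn (x : ℝ) (s w : ℂ) : ℂ := (x : ℂ) ^ (w - s) / (w - s) ^ 2 * negLogDeriv w

/-- The summand at a zero, with multiplicity. -/
def zeroKer (x : ℝ) (s ρ : ℂ) : ℂ :=
  (zeroWeight ρ : ℂ) * ((x : ℂ) ^ (ρ - s) / (ρ - s) ^ 2)

/-- `∑_{n ≤ x} Λ n log (x / n) n^(-s)`. -/
def smoothSum (x : ℝ) (s : ℂ) : ℂ :=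
  ∑ n ∈ Finset.Icc 1 ⌊x⌋₊, ((Λ n * Real.log (x / n) : ℝ) : ℂ) * (n : ℂ) ^ (-s)

theorem differentiable_shiftPow {x : ℝ} (hx : 0 < x) (s : ℂ) :
    Differentiable ℂ fun w : ℂ => (x : ℂ) ^ (w - s) := fun w =>
  (differentiableAt_id.sub_const _).const_cpow (Or.inl (ofReal_ne_zero.2 hx.ne'))

theorem hasDerivAt_shiftPow {x : ℝ} (hx : 0 < x) (s : ℂ) :
    HasDerivAt (fun w : ℂ => (x : ℂ) ^ (w - s)) ((Real.log x : ℝ) : ℂ) s := by
  have h := ((hasDerivAt_id' s).sub_const s).const_cpow (c := (x : ℂ))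
    (Or.inl (ofReal_ne_zero.2 hx.ne'))
  rw [sub_self, cpow_zero, one_mul, mul_one, ← Complex.ofReal_log hx.le] at h
  exact h

/-- The derivative of a sum over a multiset. -/
theorem hasDerivAt_sum_inv (Z : Multiset ℂ) {s : ℂ} (h : ∀ ρ ∈ Z, s ≠ ρ) :
    HasDerivAt (fun z => (Z.map fun ρ => (z - ρ)⁻¹).sum)
      (Z.map fun ρ => -((s - ρ) ^ 2)⁻¹).sum s := by
  induction Z using Multiset.induction with
  | empty => simpa using hasDerivAt_const s (0 : ℂ)
  | cons a Z ih =>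
    simp only [Multiset.map_cons, Multiset.sum_cons]
    exact (((hasDerivAt_id' s).sub_const a).inv
      (sub_ne_zero.2 (h a (Multiset.mem_cons_self _ _)))).congr_deriv (by simp [neg_div, one_div])
        |>.add (ih fun ρ hρ => h ρ (Multiset.mem_cons_of_mem hρ))

/-- **The residues.** -/
theorem boxInt_kerFn {x T : ℝ} {s : ℂ} (hx : 0 < x) (hs : -1 < s.re) (hs2 : s.re < 2)
    (hst : |s.im| < T) (hs1 : s ≠ 1) (hxs : xiFn s ≠ 0) (hord : ∀ ρ, xiFn ρ = 0 → |ρ.im| ≠ T) :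
    boxInt (kerFn x s) (-1) 2 T = 2 * π * I *
      ((Real.log x : ℝ) * negLogDeriv s + deriv negLogDeriv s +
        (x : ℂ) ^ (1 - s) / (1 - s) ^ 2 - ∑ ρ ∈ zerosUpTo T, zeroKer x s ρ) := by
  have hT0 : 0 < T := lt_of_le_of_lt (abs_nonneg _) hst
  obtain ⟨Z, h, hh, he, hZ, hne, hcount⟩ := exists_xi_factor (R := T + 5) (by linarith)
  have hball : ∀ z : ℂ, z.re ∈ Icc (-1 : ℝ) 2 → z.im ∈ Icc (-T) T →
      z ∈ Metric.closedBall (2 : ℂ) (T + 5) := fun z h1 h2 => by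
    rw [Metric.mem_closedBall, dist_eq_norm]
    refine (norm_le_abs_re_add_abs_im _).trans ?_
    simp only [sub_re, sub_im, re_ofNat, im_ofNat, sub_zero]
    rw [abs_of_nonpos (by linarith [h1.2])]
    linarith [h1.1, abs_le.2 h2]
  have hd := differentiable_shiftPow hx s
  obtain ⟨U, hU⟩ : ∃ U : Set ℂ, U = {z | -2 < z.re} ∩ {z | h z ≠ 0} := ⟨_, rfl⟩
  have hUo : IsOpen U := hU ▸ (isOpen_lt continuous_const continuous_re).inter
    (isOpen_ne_fun hh.continuous continuous_const)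
  have hbox : ∀ z : ℂ, z.re ∈ Icc (-1 : ℝ) 2 → z.im ∈ Icc (-T) T → z ∈ U := fun z h1 h2 =>
    hU ▸ ⟨show -2 < z.re by linarith [h1.1], hne z (hball z h1 h2)⟩
  obtain ⟨R, hR⟩ : ∃ R : ℂ → ℂ, R = fun z => -(deriv h z / h z) + gammaReg z := ⟨_, rfl⟩
  have hRd : DifferentiableOn ℂ R U := fun z hz => by
    rw [hU] at hz
    rw [hR]
    exact (((hh.analyticAt z).deriv.differentiableAt.div (hh z) hz.2).neg.add
      (differentiableAt_gammaReg hz.1)).differentiableWithinAt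
  have hedge : ∀ z ∈ boxEdges (-1) 2 T, z.re ∈ Icc (-1 : ℝ) 2 ∧ z.im ∈ Icc (-T) T := fun z hz => by
    obtain ⟨h1, h2, -⟩ := hz
    rw [uIcc_of_le (by norm_num)] at h1
    rw [uIcc_of_le (by linarith)] at h2
    exact ⟨h1, h2⟩
  have hsU : s ∈ U := hbox s ⟨hs.le, hs2.le⟩ (abs_le.1 hst.le)
  have hsZ : ∀ ρ ∈ Z, s ≠ ρ := fun ρ hρ e => hxs (e ▸ hZ ρ hρ)
  have hsne : ∀ z ∈ boxEdges (-1) 2 T, z ≠ s := fun z hz =>
    interior_not_edge hs hs2 hst.ne hT0.le hz
  obtain ⟨Q, hQ⟩ : ∃ Q : ℂ → ℂ, Q = fun z => (x : ℂ) ^ (z - s) / (z - s) ^ 2 := ⟨_, rfl⟩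
  have hQc : ∀ z ∈ boxEdges (-1) 2 T, ContinuousAt Q z := fun z hz => by
    rw [hQ]
    exact (hd z).continuousAt.div ((continuousAt_id.sub continuousAt_const).pow 2)
      (pow_ne_zero _ (sub_ne_zero.2 (hsne z hz)))
  have hQv : boxInt Q (-1) 2 T = 2 * π * I * ((Real.log x : ℝ) : ℂ) := by
    rw [hQ, boxInt_residue_sq isOpen_univ hd.differentiableOn (fun _ _ _ => trivial) hT0.le
      hs hs2 hst, (hasDerivAt_shiftPow hx s).deriv]
  obtain ⟨P, hP⟩ : ∃ P : ℂ → ℂ → ℂ, P = fun c z => (x : ℂ) ^ (z - s) / (z - c) := ⟨_, rfl⟩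
  have hPc : ∀ c : ℂ, -1 < c.re ∧ c.re < 2 ∧ |c.im| ≠ T →
      (∀ z ∈ boxEdges (-1) 2 T, ContinuousAt (P c) z) ∧
        boxInt (P c) (-1) 2 T =
          if |c.im| < T then 2 * π * I * (x : ℂ) ^ (c - s) else 0 := by
    rintro c ⟨h1, h2, h3⟩
    refine ⟨fun z hz => ?_, ?_⟩
    · rw [hP]
      exact (hd z).continuousAt.div (continuousAt_id.sub continuousAt_const)
        (sub_ne_zero.2 (interior_not_edge h1 h2 h3 hT0.le hz))
    · rw [hP]
      exact boxInt_residue isOpen_univ hd.differentiableOn (fun _ _ _ => trivial) hT0.le h1 h2 h3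
  have inS : -1 < s.re ∧ s.re < 2 ∧ |s.im| ≠ T := ⟨hs, hs2, hst.ne⟩
  have in1 : -1 < (1 : ℂ).re ∧ (1 : ℂ).re < 2 ∧ |(1 : ℂ).im| ≠ T := by
    simp only [one_re, one_im, abs_zero]; exact ⟨by norm_num, by norm_num, hT0.ne⟩
  have inZ : ∀ ρ ∈ Z, -1 < ρ.re ∧ ρ.re < 2 ∧ |ρ.im| ≠ T := fun ρ hρ => by
    obtain ⟨a, b⟩ := xiFn_zero_strip (hZ ρ hρ)
    exact ⟨by linarith, by linarith, hord ρ (hZ ρ hρ)⟩
  -- `x ^ (w - s) / ((w - s)² (w - c))`
  obtain ⟨M, hM⟩ : ∃ M : ℂ → ℂ → ℂ, M = fun c z =>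
      ((c - s)⁻¹ ^ 2 * P c z - (c - s)⁻¹ ^ 2 * P s z) - (c - s)⁻¹ * Q z := ⟨_, rfl⟩
  have hMc : ∀ c : ℂ, -1 < c.re ∧ c.re < 2 ∧ |c.im| ≠ T →
      (∀ z ∈ boxEdges (-1) 2 T, ContinuousAt (M c) z) ∧
        boxInt (M c) (-1) 2 T = 2 * π * I * ((if |c.im| < T then
            (c - s)⁻¹ ^ 2 * (x : ℂ) ^ (c - s) else 0) -
          (c - s)⁻¹ ^ 2 - (c - s)⁻¹ * ((Real.log x : ℝ) : ℂ)) := by
    intro c hc
    obtain ⟨c1, c2⟩ := hPc c hc
    obtain ⟨s1, s2⟩ := hPc _ inS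
    have k1 : ∀ z ∈ boxEdges (-1) 2 T, ContinuousAt
        (fun z => (c - s)⁻¹ ^ 2 * P c z - (c - s)⁻¹ ^ 2 * P s z) z := fun z hz =>
      (continuousAt_const.mul (c1 z hz)).sub (continuousAt_const.mul (s1 z hz))
    refine ⟨fun z hz => ?_, ?_⟩
    · rw [hM]
      exact (k1 z hz).sub (continuousAt_const.mul (hQc z hz))
    · rw [hM]
      dsimp only
      rw [boxInt_sub (G := fun z => (c - s)⁻¹ * Q z) k1
          (fun z hz => continuousAt_const.mul (hQc z hz)),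
        boxInt_sub (F := fun z => (c - s)⁻¹ ^ 2 * P c z) (G := fun z => (c - s)⁻¹ ^ 2 * P s z)
          (fun z hz => continuousAt_const.mul (c1 z hz))
          (fun z hz => continuousAt_const.mul (s1 z hz)), boxInt_const_mul, boxInt_const_mul,
        boxInt_const_mul, c2, s2, hQv, if_pos hst, sub_self, cpow_zero]
      split_ifs <;> ring
  obtain ⟨φ, hφ⟩ : ∃ φ : ℂ → ℂ, φ = fun z => (x : ℂ) ^ (z - s) * R z := ⟨_, rfl⟩
  have hφd : DifferentiableOn ℂ φ U := hφ ▸ hd.differentiableOn.mul hRd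
  have hφc : ∀ z ∈ boxEdges (-1) 2 T, ContinuousAt (fun z => φ z / (z - s) ^ 2) z := fun z hz =>
    ((hφd.differentiableAt (hUo.mem_nhds (hbox z (hedge z hz).1 (hedge z hz).2))).continuousAt).div
      ((continuousAt_id.sub continuousAt_const).pow 2) (pow_ne_zero _ (sub_ne_zero.2 (hsne z hz)))
  have hRs : DifferentiableAt ℂ R s := hRd.differentiableAt (hUo.mem_nhds hsU)
  have hφs : deriv φ s = ((Real.log x : ℝ) : ℂ) * R s + deriv R s := by
    rw [hφ, ((hasDerivAt_shiftPow hx s).fun_mul hRs.hasDerivAt).deriv, sub_self, cpow_zero, one_mul]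
  obtain ⟨m1, M1⟩ := hMc 1 in1
  obtain ⟨hZc, hZsum⟩ := boxInt_multiset_sum (f := fun ρ z => -1 * M ρ z) (a := (-1 : ℝ)) (b := 2)
    (T := T) Z fun ρ hρ z hz => continuousAt_const.mul ((hMc ρ (inZ ρ hρ)).1 z hz)
  have hzne : ∀ z ∈ boxEdges (-1) 2 T, ∀ ρ ∈ Z, z ≠ ρ := fun z hz ρ hρ =>
    interior_not_edge (inZ ρ hρ).1 (inZ ρ hρ).2.1 (inZ ρ hρ).2.2 hT0.le hz
  have hsum : (Z.map fun ρ =>
      if |ρ.im| < T then (ρ - s)⁻¹ ^ 2 * (x : ℂ) ^ (ρ - s) else 0).sum =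
      ∑ ρ ∈ zerosUpTo T, zeroKer x s ρ := by
    classical
    rw [Finset.sum_multiset_map_count]
    simp only [smul_ite, smul_zero]
    rw [← Finset.sum_filter]
    have hstrip : ∀ ρ : ℂ, xiFn ρ = 0 → |ρ.im| ≤ T →
        ρ ∈ Metric.closedBall (2 : ℂ) (T + 5) := fun ρ hρ hi => by
      obtain ⟨a, b⟩ := xiFn_zero_strip hρ
      exact hball ρ ⟨by linarith, by linarith⟩ (abs_le.1 hi)
    refine Finset.sum_congr ?_ fun ρ hρ => ?_
    · ext ρ
      rw [Finset.mem_filter, Multiset.mem_toFinset, mem_zerosUpTo]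
      refine ⟨fun hρ => ⟨hZ ρ hρ.1, hρ.2.le⟩, fun hρ => ⟨?_, lt_of_le_of_ne hρ.2 (hord ρ hρ.1)⟩⟩
      rw [← Multiset.one_le_count_iff_mem, ← hcount ρ (hstrip ρ hρ.1 hρ.2)]
      exact one_le_zeroWeight hρ.1
    · rw [mem_zerosUpTo] at hρ
      rw [← hcount ρ (hstrip ρ hρ.1 hρ.2), nsmul_eq_mul, zeroKer, zeroWeight, div_eq_mul_inv,
        inv_pow]
      ring
  -- `negLogDeriv` near `s`
  have hev : ∀ᶠ z in 𝓝 s, negLogDeriv z =
      -(Z.map fun ρ => (z - ρ)⁻¹).sum + (z - 1)⁻¹ + R z := by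
    classical
    have hop : IsOpen (U ∩ ((Z.toFinset : Set ℂ))ᶜ) :=
      hUo.inter Z.toFinset.finite_toSet.isClosed.isOpen_compl
    filter_upwards [hop.mem_nhds ⟨hsU, fun hm => hsZ s (Multiset.mem_toFinset.1 hm) rfl⟩] with z hz
    rw [negLogDeriv, xiLogDeriv_factor hh he
      (fun ρ hρ e => hz.2 (Multiset.mem_toFinset.2 (by rw [e]; exact hρ))) (by
        have := hz.1
        rw [hU] at this
        exact this.2), hR]
    ring
  have hNd : deriv negLogDeriv s =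
      -(Z.map fun ρ => -((s - ρ) ^ 2)⁻¹).sum + -((s - 1) ^ 2)⁻¹ + deriv R s := by
    rw [EventuallyEq.deriv_eq hev]
    exact (((hasDerivAt_sum_inv Z hsZ).neg.add (((hasDerivAt_id' s).sub_const 1).inv
      (sub_ne_zero.2 hs1) |>.congr_deriv (by simp [neg_div, one_div]))).add hRs.hasDerivAt).deriv
  rw [boxInt_congr (G := fun z => φ z / (z - s) ^ 2 + (M 1 z + (Z.map fun ρ => -1 * M ρ z).sum))
      fun z hz => ?_,
    boxInt_add (F := fun z => φ z / (z - s) ^ 2)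
      (G := fun z => M 1 z + (Z.map fun ρ => -1 * M ρ z).sum) hφc
      (fun z hz => (m1 z hz).add (hZc z hz)),
    boxInt_add (F := M 1) (G := fun z => (Z.map fun ρ => -1 * M ρ z).sum) m1 hZc,
    boxInt_residue_sq hUo hφd hbox hT0.le hs hs2 hst, hZsum, M1, hφs]
  · rw [if_pos (by simpa using hT0)]
    have hmap : (Z.map fun ρ => boxInt (fun z => -1 * M ρ z) (-1) 2 T) =
        Z.map fun ρ => -(2 * π * I) *
            (if |ρ.im| < T then (ρ - s)⁻¹ ^ 2 * (x : ℂ) ^ (ρ - s) else 0) +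
          (-(2 * π * I) * -((Real.log x : ℝ) : ℂ) * -(s - ρ)⁻¹ +
            -(2 * π * I) * -((s - ρ) ^ 2)⁻¹) := by
      refine Multiset.map_congr rfl fun ρ hρ => ?_
      rw [boxInt_const_mul, (hMc ρ (inZ ρ hρ)).2, ← neg_sub s ρ, inv_neg, ← inv_pow (s - ρ) 2]
      ring
    rw [hmap, Multiset.sum_map_add, Multiset.sum_map_add, Multiset.sum_map_mul_left,
      Multiset.sum_map_mul_left, Multiset.sum_map_mul_left, Multiset.sum_map_neg, hsum, hNd,
      hev.self_of_nhds, div_eq_mul_inv _ ((1 - s) ^ 2), ← inv_pow, ← inv_pow,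
      show (1 : ℂ) - s = -(s - 1) by ring, inv_neg]
    ring
  · obtain ⟨h1, h2⟩ := hedge z hz
    have hzs := sub_ne_zero.2 (hsne z hz)
    have hsplit : ∀ c : ℂ, c ≠ s → z - c ≠ 0 →
        M c z = Q z * (z - c)⁻¹ := fun c hc hzc => by
      have := sub_ne_zero.2 hc
      rw [hM, hP, hQ]
      dsimp only
      field_simp
      ring
    have hm : (Z.map fun ρ => -1 * M ρ z) = Z.map fun ρ => -Q z * (z - ρ)⁻¹ := by
      refine Multiset.map_congr rfl fun ρ hρ => ?_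
      rw [hsplit ρ (hsZ ρ hρ).symm (sub_ne_zero.2 (hzne z hz ρ hρ))]
      ring
    dsimp only
    rw [hm, Multiset.sum_map_mul_left, hsplit 1 hs1.symm
      (sub_ne_zero.2 (interior_not_edge in1.1 in1.2.1 in1.2.2 hT0.le hz)), kerFn, negLogDeriv,
      xiLogDeriv_factor hh he (hzne z hz) (hne z (hball z h1 h2)), hφ, hR, hQ]
    ring

theorem norm_shiftPow {x : ℝ} (hx : 0 < x) (s w : ℂ) :
    ‖(x : ℂ) ^ (w - s)‖ = x ^ (w.re - s.re) := by
  rw [norm_cpow_eq_rpow_re_of_pos hx, sub_re]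

theorem continuous_kerFn_line {x : ℝ} (hx : 0 < x) {s : ℂ} (hs : -1 < s.re) (hs2 : s.re < 2)
    (σ : ℝ) (hσ : σ = -1 ∨ σ = 2) :
    Continuous fun v : ℝ => kerFn x s ((σ : ℂ) + v * I) := by
  refine continuous_iff_continuousAt.2 fun v => ContinuousAt.comp' (g := kerFn x s)
    (f := fun v : ℝ => (σ : ℂ) + v * I) ?_ (by fun_prop)
  obtain ⟨w, hw⟩ : ∃ w : ℂ, w = (σ : ℂ) + v * I := ⟨_, rfl⟩
  have hre : w.re = σ := by simp [hw]
  rw [← hw]
  have hxi : xiFn w ≠ 0 := fun h => by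
    obtain ⟨a, b⟩ := xiFn_zero_strip h
    rcases hσ with h | h <;> linarith
  have hws : w - s ≠ 0 := fun h => by
    have := congrArg Complex.re h
    rw [sub_re, hre, zero_re] at this
    rcases hσ with h | h <;> linarith
  have hw1 : w ≠ 1 := fun h => by
    have := congrArg Complex.re h
    rw [hre, one_re] at this
    rcases hσ with h | h <;> linarith
  exact (((differentiable_shiftPow hx s w).div ((differentiableAt_id.sub_const s).pow 2)
    (pow_ne_zero _ hws)).mul (differentiableAt_negLogDeriv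
      (by rcases hσ with h | h <;> linarith) hw1 hxi)).continuousAt

/-- The size of the kernel on a vertical line. -/
theorem norm_kernel_line_le {x : ℝ} (hx : 0 < x) {σ u t v b : ℝ} (hb : 0 < b) (hb1 : b ≤ 1)
    (h : b ≤ |σ - u|) :
    ‖(x : ℂ) ^ ((σ : ℂ) + v * I - ((u : ℂ) + t * I)) / ((σ : ℂ) + v * I - ((u : ℂ) + t * I)) ^ 2‖ ≤
      x ^ (σ - u) * ((1 / b ^ 2) / (1 + (v - t) ^ 2)) := by
  rw [norm_div, norm_shiftPow hx, norm_pow, Complex.sq_norm, Complex.normSq_apply]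
  simp only [add_re, add_im, sub_re, sub_im, mul_re, mul_im, ofReal_re, ofReal_im, I_re, I_im,
    mul_zero, mul_one, zero_mul, sub_zero, add_zero, zero_add]
  rw [div_eq_mul_one_div]
  refine mul_le_mul_of_nonneg_left ?_ (Real.rpow_nonneg hx.le _)
  have h2 : b ^ 2 ≤ (σ - u) * (σ - u) := by
    rw [sq, ← abs_mul_abs_self (σ - u)]
    exact mul_le_mul h h hb.le (abs_nonneg _)
  have hb2 : b ^ 2 ≤ 1 := pow_le_one₀ hb.le hb1
  rw [div_div, div_le_div_iff₀ (by nlinarith [mul_self_nonneg (v - t)]) (by positivity)]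
  nlinarith [mul_self_nonneg (v - t), mul_le_mul_of_nonneg_right hb2 (mul_self_nonneg (v - t))]

/-- **The right side.** -/
theorem integral_right_ker {x u t : ℝ} (hx : 1 ≤ x) (hu : -1 < u) (hu2 : u ≤ 7 / 4) :
    Integrable (fun v : ℝ => kerFn x ((u : ℂ) + t * I) (((2 : ℝ) : ℂ) + v * I)) ∧
      ∫ v : ℝ, kerFn x ((u : ℂ) + t * I) (((2 : ℝ) : ℂ) + v * I) =
        2 * π * smoothSum x ((u : ℂ) + t * I) := by
  have hx0 : 0 < x := by linarith
  obtain ⟨s, hs⟩ : ∃ s : ℂ, s = (u : ℂ) + t * I := ⟨_, rfl⟩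
  rw [← hs]
  have hL : ∀ w : ℂ, 1 < w.re → LSeriesSummable (fun n => ((Λ n : ℝ) : ℂ)) w ∧
      LSeries (fun n => ((Λ n : ℝ) : ℂ)) w = negLogDeriv w := fun w hw => by
    refine ⟨ArithmeticFunction.LSeriesSummable_vonMangoldt hw, ?_⟩
    rw [ArithmeticFunction.LSeries_vonMangoldt_eq_deriv_riemannZeta_div hw, negLogDeriv_eq
      (by linarith) (fun h => by rw [h] at hw; simp at hw)
      (riemannZeta_ne_zero_of_one_le_re hw.le), neg_div]
  obtain ⟨F, hF⟩ : ∃ F : ℕ → ℝ → ℂ, F = fun n (v : ℝ) =>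
      LSeries.term (fun n => ((Λ n : ℝ) : ℂ)) (((2 : ℝ) : ℂ) + v * I) n *
        ((x : ℂ) ^ (((2 : ℝ) : ℂ) + v * I - s) / (((2 : ℝ) : ℂ) + v * I - s) ^ 2) := ⟨_, rfl⟩
  obtain ⟨c, hc⟩ : ∃ c : ℕ → ℝ,
      c = fun n => ‖LSeries.term (fun n => ((Λ n : ℝ) : ℂ)) ((2 : ℝ) : ℂ) n‖ := ⟨_, rfl⟩
  have hcs : Summable c := hc ▸ ((hL _ (by simp)).1).norm
  have hterm : ∀ (n : ℕ) (v : ℝ), ‖LSeries.term (fun n => ((Λ n : ℝ) : ℂ))
      (((2 : ℝ) : ℂ) + v * I) n‖ = c n := fun n v => by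
    rw [hc]
    simp only [LSeries.norm_term_eq]
    simp
  have hnorm : ∀ n v, ‖F n v‖ ≤
      c n * (x ^ (2 - u) * ((1 / (1 / 4 : ℝ) ^ 2) / (1 + (v - t) ^ 2))) := fun n v => by
    rw [hF]
    simp only [norm_mul, hterm]
    refine mul_le_mul_of_nonneg_left ?_ (hc ▸ norm_nonneg _)
    rw [hs]
    exact norm_kernel_line_le hx0 (by norm_num) (by norm_num)
      (by rw [abs_of_nonneg (by linarith)]; linarith)
  have hi : Integrable fun v =>
      x ^ (2 - u) * ((1 / (1 / 4 : ℝ) ^ 2) / (1 + (v - t) ^ 2)) := by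
    refine (((FA.PairCorrelation.integrable_inv_shift t).const_mul (1 / (1 / 4 : ℝ) ^ 2)).const_mul
      (x ^ (2 - u))).congr (Eventually.of_forall fun v => ?_)
    ring
  have hws : ∀ v : ℝ, ((2 : ℝ) : ℂ) + v * I - s ≠ 0 := fun v h => by
    have := congrArg Complex.re h
    simp [hs] at this
    linarith
  have hmeas : ∀ n, AEStronglyMeasurable (F n) := fun n => by
    rw [hF]
    refine (Continuous.mul ?_ (Continuous.div ?_ (by fun_prop) fun v =>
      pow_ne_zero _ (hws v))).aestronglyMeasurable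
    · rcases Nat.eq_zero_or_pos n with rfl | hn
      · simpa using continuous_const
      simp only [LSeries.term_of_ne_zero hn.ne']
      exact continuous_const.div ((by fun_prop : Continuous fun v : ℝ => ((2 : ℝ) : ℂ) + v * I
        ).const_cpow (Or.inl (Nat.cast_ne_zero.2 hn.ne'))) fun v => by
          simp [Complex.cpow_eq_zero_iff, hn.ne']
    · exact (by fun_prop : Continuous fun v : ℝ => ((2 : ℝ) : ℂ) + v * I - s).const_cpow
        (Or.inl (ofReal_ne_zero.2 hx0.ne'))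
  have hint : ∀ n, Integrable (F n) := fun n =>
    (hi.const_mul (c n)).mono' (hmeas n) (Eventually.of_forall (hnorm n))
  have hsum : Summable fun n => ∫ v, ‖F n v‖ := by
    refine Summable.of_nonneg_of_le (fun n => integral_nonneg fun v => norm_nonneg _) (fun n => ?_)
      (hcs.mul_right (∫ v, x ^ (2 - u) * ((1 / (1 / 4 : ℝ) ^ 2) / (1 + (v - t) ^ 2))))
    rw [← integral_const_mul]
    exact integral_mono (hint n).norm (hi.const_mul _) (hnorm n)
  have hpt : ∀ v : ℝ, kerFn x s (((2 : ℝ) : ℂ) + v * I) = ∑' n, F n v := fun v => by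
    rw [kerFn, ← (hL _ (by simp)).2, LSeries, ← tsum_mul_left, hF]
    exact tsum_congr fun n => by ring
  constructor
  · refine (hi.const_mul (∑' n, c n)).mono'
      (continuous_kerFn_line hx0 (by simpa [hs] using hu) (by simp [hs]; linarith) 2
        (Or.inr rfl)).aestronglyMeasurable (Eventually.of_forall fun v => ?_)
    rw [hpt, ← tsum_mul_right]
    exact tsum_of_norm_bounded (hcs.mul_right _).hasSum fun n => hnorm n v
  · rw [funext hpt, ← integral_tsum_of_summable_integral_norm hint hsum]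
    have hval : ∀ n, 0 < n → ∫ v, F n v = (((Λ n : ℝ) : ℂ) * (n : ℂ) ^ (-s)) *
        (2 * π * ((max (Real.log (x / n)) 0 : ℝ) : ℂ)) := fun n hn => by
      have hn0 : (0 : ℝ) < n := Nat.cast_pos.2 hn
      rw [← integral_perron_sq (show 0 < 2 - u by linarith) (div_pos hx0 hn0),
        ← integral_add_right_eq_self (fun v => F n v) t, ← integral_const_mul]
      refine integral_congr_ae (Eventually.of_forall fun d => ?_)
      have e : ((2 : ℝ) : ℂ) + ((d + t : ℝ) : ℂ) * I - s =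
          (((2 - u : ℝ)) : ℂ) + (d : ℂ) * I := by rw [hs]; push_cast; ring
      have e2 : ((2 : ℝ) : ℂ) + ((d + t : ℝ) : ℂ) * I =
          s + ((((2 - u : ℝ)) : ℂ) + (d : ℂ) * I) := by rw [← e]; ring
      have hdiv : ∀ w : ℂ, ((x / n : ℝ) : ℂ) ^ w = (x : ℂ) ^ w / (n : ℂ) ^ w := fun w => by
        rw [FA.PairCorrelation.cpow_pos_eq (div_pos hx0 hn0), FA.PairCorrelation.cpow_pos_eq hx0,
          cpow_def_of_ne_zero (Nat.cast_ne_zero.2 hn.ne'), ← Complex.natCast_log,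
          Real.log_div hx0.ne' hn0.ne', ← Complex.exp_sub]
        push_cast
        ring_nf
      simp only [hF]
      rw [e, LSeries.term_of_ne_zero hn.ne', e2, cpow_add _ _ (Nat.cast_ne_zero.2 hn.ne'), hdiv,
        cpow_neg]
      ring
    have hz : ∀ n ∉ Finset.Icc 1 ⌊x⌋₊, ∫ v, F n v = 0 := fun n hn => by
      rcases Nat.eq_zero_or_pos n with rfl | hn0
      · simp [hF]
      have : (x : ℝ) < n := by
        rw [Finset.mem_Icc] at hn
        exact Nat.lt_of_floor_lt (by omega)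
      have hl : Real.log (x / n) ≤ 0 := Real.log_nonpos (by positivity)
        ((div_le_one (Nat.cast_pos.2 hn0)).2 this.le)
      rw [hval n hn0, max_eq_right hl]
      simp
    rw [tsum_eq_sum hz, smoothSum, Finset.mul_sum]
    refine Finset.sum_congr rfl fun n hn => ?_
    rw [Finset.mem_Icc] at hn
    have h1 : (n : ℝ) ≤ x := (Nat.cast_le.2 hn.2).trans (Nat.floor_le hx0.le)
    rw [hval n (by omega), max_eq_left (Real.log_nonneg ((one_le_div (by
      exact_mod_cast hn.1)).2 h1))]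
    push_cast
    ring

/-- The left side of the kernel alone vanishes. -/
theorem integral_left_kernel {x u t : ℝ} (hx : 1 ≤ x) (hu : -1 < u) :
    ∫ v : ℝ, (x : ℂ) ^ (((-1 : ℝ) : ℂ) + v * I - ((u : ℂ) + t * I)) /
      (((-1 : ℝ) : ℂ) + v * I - ((u : ℂ) + t * I)) ^ 2 = 0 := by
  rw [← integral_perron_sq_left (show -1 - u < 0 by linarith) hx,
    ← integral_add_right_eq_self _ t]
  refine integral_congr_ae (Eventually.of_forall fun d => ?_)
  dsimp only
  rw [show ((-1 : ℝ) : ℂ) + ((d + t : ℝ) : ℂ) * I - ((u : ℂ) + t * I) =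
    ((-1 - u : ℝ) : ℂ) + (d : ℂ) * I by push_cast; ring]

/-- **The left side is `O (1)`.** -/
theorem exists_integral_left_ker : ∃ C, 0 ≤ C ∧ ∀ x u t : ℝ, 1 ≤ x → 0 ≤ u → u ≤ 7 / 4 →
    Integrable (fun v : ℝ => kerFn x ((u : ℂ) + t * I) (((-1 : ℝ) : ℂ) + v * I)) ∧
      ‖∫ v : ℝ, kerFn x ((u : ℂ) + t * I) (((-1 : ℝ) : ℂ) + v * I)‖ ≤ C := by
  obtain ⟨C, hC, hb⟩ := exists_negLogDeriv_left
  have hJ : 0 ≤ ∫ y, decay y := integral_nonneg fun y => (decay_pos y).le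
  refine ⟨(C + 4) * ∫ y, decay y, by positivity, fun x u t hx hu hu2 => ?_⟩
  have hx0 : 0 < x := by linarith
  obtain ⟨s, hs⟩ : ∃ s : ℂ, s = (u : ℂ) + t * I := ⟨_, rfl⟩
  rw [← hs]
  obtain ⟨B, hB⟩ : ∃ B : ℝ → ℂ, B = fun v : ℝ => (x : ℂ) ^ (((-1 : ℝ) : ℂ) + v * I - s) /
      (((-1 : ℝ) : ℂ) + v * I - s) ^ 2 := ⟨_, rfl⟩
  have hws : ∀ v : ℝ, ((-1 : ℝ) : ℂ) + v * I - s ≠ 0 := fun v h => by
    have := congrArg Complex.re h
    simp [hs] at this
    linarith
  have hBc : Continuous B := hB ▸ ((by fun_prop : Continuous fun v : ℝ =>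
    ((-1 : ℝ) : ℂ) + v * I - s).const_cpow (Or.inl (ofReal_ne_zero.2 hx0.ne'))).div
      (by fun_prop) fun v => pow_ne_zero _ (hws v)
  have hBn : ∀ v, ‖B v‖ ≤ 1 / (1 + (v - t) ^ 2) := fun v => by
    rw [hB, hs]
    refine (norm_kernel_line_le hx0 one_pos le_rfl
      (by rw [abs_of_nonpos (by linarith)]; linarith)).trans ?_
    refine (mul_le_of_le_one_left (by positivity)
      (Real.rpow_le_one_of_one_le_of_nonpos hx (by linarith))).trans (le_of_eq ?_)
    simp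
  have hBi : Integrable B := (FA.PairCorrelation.integrable_inv_shift t).mono'
    hBc.aestronglyMeasurable (Eventually.of_forall hBn)
  obtain ⟨G, hG⟩ : ∃ G : ℝ → ℂ, G = fun v : ℝ => kerFn x s (((-1 : ℝ) : ℂ) + v * I) -
      ((Real.log (|t| + 2) : ℝ) : ℂ) * B v := ⟨_, rfl⟩
  have hGb : ∀ v, ‖G v‖ ≤ (C + 4) * decay (v - t) := fun v => by
    rw [hG]
    obtain ⟨q, hq⟩ : ∃ q, q = (1 + (v - t) ^ 2) ^ (1 / 4 : ℝ) := ⟨_, rfl⟩
    have hq1 : 1 ≤ q := hq ▸ Real.one_le_rpow (by nlinarith) (by norm_num)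
    dsimp only
    rw [show kerFn x s (((-1 : ℝ) : ℂ) + v * I) = B v * negLogDeriv (((-1 : ℝ) : ℂ) + v * I) by
      rw [kerFn, hB], mul_comm _ (B v), ← mul_sub, norm_mul]
    have hn : ‖negLogDeriv (((-1 : ℝ) : ℂ) + v * I) - ((Real.log (|t| + 2) : ℝ) : ℂ)‖ ≤
        (C + 4) * q := by
      refine (norm_sub_le_norm_sub_add_norm_sub _ ((Real.log (|v| + 2) : ℝ) : ℂ) _).trans ?_
      rw [← Complex.ofReal_sub, Complex.norm_real, Real.norm_eq_abs]
      have h1 := hb (-1) v le_rfl (by norm_num)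
      have h2 := log_sub_le v t
      rw [← hq] at h2
      nlinarith [mul_le_mul_of_nonneg_left hq1 hC]
    refine (mul_le_mul (hBn v) hn (norm_nonneg _) (by positivity)).trans (le_of_eq ?_)
    have hdec : decay (v - t) = q / (1 + (v - t) ^ 2) := by
      rw [decay, hq, eq_div_iff (by positivity), ← Real.rpow_add_one (by positivity)]
      norm_num
    rw [hdec]
    ring
  have hGc : Continuous G := hG ▸ (continuous_kerFn_line hx0 (by simp [hs]; linarith)
    (by simp [hs]; linarith) (-1) (Or.inl rfl)).sub (continuous_const.mul hBc)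
  have hdi : Integrable fun v => (C + 4) * decay (v - t) :=
    (integrable_decay.comp_sub_right t).const_mul _
  have hGi : Integrable G := hdi.mono' hGc.aestronglyMeasurable (Eventually.of_forall hGb)
  have e : (fun v : ℝ => kerFn x s (((-1 : ℝ) : ℂ) + v * I)) = fun v => G v +
      ((Real.log (|t| + 2) : ℝ) : ℂ) * B v := by
    funext v; rw [hG]; ring
  rw [e]
  refine ⟨hGi.add (hBi.const_mul _), ?_⟩
  have hB0 : ∫ v, B v = 0 := by
    rw [hB, hs]
    exact integral_left_kernel hx (by linarith)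
  rw [integral_add hGi (hBi.const_mul _), integral_const_mul, hB0, mul_zero, add_zero]
  refine (norm_integral_le_of_norm_le hdi (Eventually.of_forall hGb)).trans (le_of_eq ?_)
  rw [integral_const_mul, integral_sub_right_eq_self decay t]

/-- The heights. -/
theorem exists_ker_heights : ∃ T : ℕ → ℝ, (∀ m : ℕ, (m : ℝ) + 3 ≤ T m) ∧
    (∀ m ρ, xiFn ρ = 0 → |ρ.im| ≠ T m) ∧
    ∀ (x : ℝ) (s : ℂ), 1 ≤ x → 0 ≤ s.re → ∀ e : ℝ, |e| = 1 →
      Tendsto (fun m => ∫ u in (-1 : ℝ)..2, kerFn x s ((u : ℂ) + ((e * T m : ℝ) : ℂ) * I))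
          atTop (𝓝 0) := by
  obtain ⟨C, hC, hb⟩ := exists_negLogDeriv_horizontal
  obtain ⟨K, hK1, hK⟩ := ell_pow_le
  obtain ⟨c, hc, hheight⟩ := exists_good_height
  choose T hT1 hT2 hgap using fun m : ℕ => hheight (m + 3)
  obtain ⟨d, hd⟩ : ∃ d, d = min c 1 := ⟨_, rfl⟩
  have hd0 : 0 < d := hd ▸ lt_min hc one_pos
  have hlow : ∀ m : ℕ, (m : ℝ) + 3 ≤ T m := fun m => le_trans (by push_cast; rfl) (hT1 m)
  refine ⟨T, hlow, fun m ρ hρ h => ?_, fun x s hx hs e he => ?_⟩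
  · have := hgap m ρ hρ
    rw [h, sub_self, abs_zero] at this
    linarith [div_pos hc (ell_pos ((m + 3 : ℕ) : ℝ))]
  have hx0 : 0 < x := by linarith
  obtain ⟨B, hB⟩ : ∃ B, B = 3 * (x ^ (2 : ℕ) * ((C / d + 1) * K) * 8) := ⟨_, rfl⟩
  have hTtop : Tendsto T atTop atTop := tendsto_atTop_mono
    (fun m => le_trans (le_add_of_nonneg_right (by norm_num)) (hlow m))
    tendsto_natCast_atTop_atTop
  have h0 : Tendsto (fun m => B * decay (T m)) atTop (𝓝 0) := by
    have h0 : Tendsto decay atTop (𝓝 0) :=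
      tendsto_of_tendsto_of_tendsto_of_le_of_le' tendsto_const_nhds
        (tendsto_rpow_neg_atTop (show (0 : ℝ) < 3 / 2 by norm_num))
        (Eventually.of_forall fun y => (decay_pos y).le)
        ((eventually_gt_atTop 0).mono fun y hy => decay_le hy)
    simpa using (h0.comp hTtop).const_mul B
  have key : ∀ᶠ m in atTop, ∀ u ∈ Set.uIoc (-1 : ℝ) 2,
      ‖kerFn x s ((u : ℂ) + ((e * T m : ℝ) : ℂ) * I)‖ ≤ B * decay (T m) / 3 := by
    filter_upwards [hTtop.eventually (eventually_ge_atTop (2 * |s.im| + 3))] with m hm u hu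
    rw [uIoc_of_le (by norm_num)] at hu
    have hT3 : 3 ≤ T m := by linarith [abs_nonneg s.im]
    have habs : |e * T m| = T m := by rw [abs_mul, he, one_mul, abs_of_pos (by linarith)]
    obtain ⟨w, hw⟩ : ∃ w : ℂ, w = (u : ℂ) + ((e * T m : ℝ) : ℂ) * I := ⟨_, rfl⟩
    rw [← hw]
    have hre : w.re = u := by simp [hw]
    have him : w.im = e * T m := by simp [hw]
    have hlt : T m / 2 ≤ |w.im - s.im| := by
      have := abs_sub_abs_le_abs_sub w.im s.im
      rw [him, habs] at this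
      rw [him]
      linarith
    have hk : (1 : ℝ) / ‖w - s‖ ^ 2 ≤ 8 / (1 + T m ^ 2) := by
      have h1 : (T m / 2) * (T m / 2) ≤ ‖w - s‖ ^ 2 := by
        rw [Complex.sq_norm, Complex.normSq_apply, sub_re, sub_im]
        nlinarith [mul_self_le_mul_self (by linarith) hlt, abs_mul_abs_self (w.im - s.im),
          mul_self_nonneg (w.re - s.re)]
      rw [div_le_div_iff₀ (lt_of_lt_of_le (by nlinarith) h1) (by positivity)]
      nlinarith
    have hp : ‖(x : ℂ) ^ (w - s)‖ ≤ x ^ (2 : ℕ) := by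
      rw [norm_shiftPow hx0, ← Real.rpow_natCast]
      exact Real.rpow_le_rpow_of_exponent_le hx (by rw [hre]; push_cast; linarith [hu.2])
    have hδ : d / ell ((m + 3 : ℕ) : ℝ) ≤ 1 := by
      rw [div_le_one (ell_pos _)]
      linarith [four_le_ell ((m + 3 : ℕ) : ℝ), hd ▸ min_le_right c 1]
    have hl := four_le_ell (T m)
    obtain ⟨W, hW⟩ : ∃ W, W = (1 + T m ^ 2) ^ (1 / 4 : ℝ) := ⟨_, rfl⟩
    have hW1 : 1 ≤ W := hW ▸ Real.one_le_rpow (by nlinarith) (by norm_num)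
    have hn : ‖negLogDeriv w‖ ≤ (C / d + 1) * K * W := by
      rw [hw]
      refine (hb u (e * T m) (d / ell ((m + 3 : ℕ) : ℝ)) hu.1.le hu.2 (by rw [habs]; exact hT3)
        (div_pos hd0 (ell_pos _)) hδ fun ρ hρ => ?_).trans ?_
      · rw [habs]
        refine le_trans ?_ (hgap m ρ hρ)
        exact div_le_div_of_nonneg_right (hd ▸ min_le_left c 1) (ell_pos _).le
      · have e1 : ell (e * T m) = ell (T m) := by
          rw [ell, ell, habs, abs_of_pos (by linarith : 0 < T m)]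
        have e2 : ell ((m + 3 : ℕ) : ℝ) ≤ ell (T m) := ell_mono (by
          rw [Nat.abs_cast, abs_of_pos (by linarith : 0 < T m)]; exact hT1 m)
        have h9 : ell (T m) ^ 2 ≤ K * W := hW ▸
          (pow_le_pow_right₀ (by linarith) (by norm_num)).trans (hK _)
        rw [e1, div_div_eq_mul_div, mul_assoc]
        calc C * (ell (T m) * ell ((m + 3 : ℕ) : ℝ)) / d ≤ C * ell (T m) ^ 2 / d := by
              rw [sq]; gcongr
          _ ≤ C * (K * W) / d := by gcongr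
          _ ≤ _ := by
              have : 0 ≤ K * W := by positivity
              linarith [show (C / d + 1) * K * W = C * (K * W) / d + K * W by ring]
    have hdec : decay (T m) = W / (1 + T m ^ 2) := by
      rw [decay, hW, eq_div_iff (by positivity), ← Real.rpow_add_one (by positivity)]
      norm_num
    rw [kerFn, norm_mul, norm_div, norm_pow, div_eq_mul_one_div, hdec, hB]
    exact (mul_le_mul (mul_le_mul hp hk (by positivity) (by positivity)) hn (norm_nonneg _)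
      (by positivity)).trans (le_of_eq (by ring))
  refine squeeze_zero_norm' (key.mono fun m hm => ?_) h0
  refine (intervalIntegral.norm_integral_le_of_norm_le_const fun u hu => hm u hu).trans
    (le_of_eq ?_)
  norm_num

theorem zeroKer_eq_zero {ρ : ℂ} (x : ℝ) (s : ℂ) (hρ : xiFn ρ ≠ 0) : zeroKer x s ρ = 0 := by
  simp [zeroKer, zeroWeight_eq_zero hρ]

theorem summable_norm_zeroKer {x : ℝ} (hx : 1 ≤ x) {s : ℂ} (hs : 0 ≤ s.re) :
    Summable fun ρ => ‖zeroKer x s ρ‖ := by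
  obtain ⟨C, -, hsum⟩ := exists_sq_sum
  have hsq : Summable fun ρ : ℂ => (zeroWeight ρ : ℝ) * (1 / (1 + |ρ.im|) ^ 2) :=
    summable_of_sum_le (fun ρ => by positivity) hsum
  refine Summable.of_norm_bounded_eventually (hsq.mul_left (16 * x)) ?_
  refine eventually_cofinite.2 ((zerosUpTo (2 * |s.im| + 2)).finite_toSet.subset fun ρ hρ => ?_)
  simp only [Set.mem_ofPred_eq, norm_norm] at hρ
  rw [Finset.mem_coe, mem_zerosUpTo]
  by_contra hcon
  by_cases hz : xiFn ρ = 0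
  swap
  · exact hρ (by rw [zeroKer_eq_zero x s hz, norm_zero]; positivity)
  simp only [not_and, not_le] at hcon
  have him := hcon hz
  refine hρ ?_
  rw [zeroKer, norm_mul, Complex.norm_natCast, norm_div, norm_pow, norm_shiftPow (by linarith),
    mul_left_comm]
  refine mul_le_mul_of_nonneg_left ?_ (Nat.cast_nonneg _)
  have h1 : x ^ (ρ.re - s.re) ≤ x := by
    refine (Real.rpow_le_rpow_of_exponent_le hx ?_).trans_eq (Real.rpow_one x)
    linarith [(xiFn_zero_strip hz).2]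
  have h2 : (1 + |ρ.im|) / 4 ≤ ‖ρ - s‖ := by
    refine le_trans ?_ (abs_im_le_norm _)
    rw [sub_im]
    linarith [abs_sub_abs_le_abs_sub ρ.im s.im, abs_nonneg s.im]
  calc x ^ (ρ.re - s.re) / ‖ρ - s‖ ^ 2 ≤ x / ((1 + |ρ.im|) / 4) ^ 2 :=
        div_le_div₀ (by linarith) h1 (by positivity) (pow_le_pow_left₀ (by positivity) h2 2)
    _ = 16 * x * (1 / (1 + |ρ.im|) ^ 2) := by rw [div_pow]; field_simp; norm_num

theorem tendsto_zeroKer {x : ℝ} (hx : 1 ≤ x) {s : ℂ} (hs : 0 ≤ s.re) {T : ℕ → ℝ}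
    (hT : Tendsto T atTop atTop) :
    Tendsto (fun m => ∑ ρ ∈ zerosUpTo (T m), zeroKer x s ρ) atTop
      (𝓝 (∑' ρ, zeroKer x s ρ)) := by
  classical
  have hsupp : Function.support (zeroKer x s) ⊆ {ρ | xiFn ρ = 0} := fun ρ hρ => by
    by_contra h
    exact hρ (zeroKer_eq_zero x s h)
  have h : HasSum (zeroKer x s ∘ ((↑) : {ρ : ℂ | xiFn ρ = 0} → ℂ)) (∑' ρ, zeroKer x s ρ) :=
    (hasSum_subtype_iff_of_support_subset hsupp).2 (summable_norm_zeroKer hx hs).of_norm.hasSum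
  have hatTop : Tendsto (fun m => (zerosUpTo (T m)).subtype fun ρ => ρ ∈ {ρ : ℂ | xiFn ρ = 0})
      atTop atTop := by
    refine tendsto_atTop.2 fun S => ?_
    filter_upwards [hT.eventually (eventually_ge_atTop (∑ ρ ∈ S, |(ρ : ℂ).im|))] with m hm
    intro ρ hρ
    rw [Finset.mem_subtype, mem_zerosUpTo]
    exact ⟨ρ.2, le_trans (Finset.single_le_sum (f := fun ρ : {ρ : ℂ | xiFn ρ = 0} => |(ρ : ℂ).im|)
      (fun i _ => abs_nonneg _) hρ) hm⟩
  refine (h.comp hatTop).congr fun m => ?_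
  exact Finset.sum_subtype_of_mem (fun ρ => zeroKer x s ρ) fun ρ hρ => (mem_zerosUpTo.1 hρ).1

/-- **The smoothed explicit formula.** -/
theorem exists_smooth_formula : ∃ C, 0 ≤ C ∧ ∀ x u t : ℝ, 1 ≤ x → 1 / 2 ≤ u → u ≤ 7 / 4 →
    1 ≤ |t| → x ≤ t ^ 4 → xiFn ((u : ℂ) + t * I) ≠ 0 →
      ‖(Real.log x : ℝ) * negLogDeriv ((u : ℂ) + t * I) + deriv negLogDeriv ((u : ℂ) + t * I) -
          (∑' ρ, zeroKer x ((u : ℂ) + t * I) ρ) - smoothSum x ((u : ℂ) + t * I)‖ ≤ C := by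
  obtain ⟨C, hC, hleft⟩ := exists_integral_left_ker
  refine ⟨C + 1, by positivity, fun x u t hx hu hu2 ht hxt hxs => ?_⟩
  have hx0 : 0 < x := by linarith
  obtain ⟨T, hlow, hord, hside⟩ := exists_ker_heights
  have hTtop : Tendsto T atTop atTop := tendsto_atTop_mono
    (fun m => le_trans (le_add_of_nonneg_right (by norm_num)) (hlow m))
    tendsto_natCast_atTop_atTop
  obtain ⟨hiL, hL⟩ := hleft x u t hx (by linarith) hu2
  obtain ⟨hiR, hR⟩ := integral_right_ker (t := t) hx (by linarith) hu2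
  obtain ⟨s, hs⟩ : ∃ s : ℂ, s = (u : ℂ) + t * I := ⟨_, rfl⟩
  simp only [← hs] at hiL hL hiR hR hxs ⊢
  have hre : s.re = u := by simp [hs]
  have him : s.im = t := by simp [hs]
  obtain ⟨L, hLdef⟩ : ∃ L, L = ∫ v : ℝ, kerFn x s (((-1 : ℝ) : ℂ) + v * I) := ⟨_, rfl⟩
  rw [← hLdef] at hL
  have hlim : Tendsto (fun m => boxInt (kerFn x s) (-1) 2 (T m)) atTop
      (𝓝 (0 - 0 + I * (2 * π * smoothSum x s) - I * L)) := by
    refine ((Tendsto.sub ?_ ?_).add (Tendsto.const_mul I ?_)).sub (Tendsto.const_mul I ?_)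
    · simpa using hside x s hx (by rw [hre]; linarith) (-1) (by norm_num)
    · simpa using hside x s hx (by rw [hre]; linarith) 1 (by norm_num)
    · rw [← hR]
      exact intervalIntegral_tendsto_integral hiR (tendsto_neg_atTop_atBot.comp hTtop) hTtop
    · rw [hLdef]
      exact intervalIntegral_tendsto_integral hiL (tendsto_neg_atTop_atBot.comp hTtop) hTtop
  have hs1 : s ≠ 1 := fun h => by
    rw [h, one_im] at him
    rw [← him, abs_zero] at ht
    norm_num at ht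
  have hbox : Tendsto (fun m => boxInt (kerFn x s) (-1) 2 (T m)) atTop
      (𝓝 (2 * π * I * ((Real.log x : ℝ) * negLogDeriv s + deriv negLogDeriv s +
        (x : ℂ) ^ (1 - s) / (1 - s) ^ 2 - ∑' ρ, zeroKer x s ρ))) := by
    refine (((tendsto_zeroKer hx (by rw [hre]; linarith) hTtop).const_sub _).const_mul _).congr' ?_
    filter_upwards [hTtop.eventually (eventually_gt_atTop |t|)] with m hm
    exact (boxInt_kerFn hx0 (by rw [hre]; linarith) (by rw [hre]; linarith)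
      (by rw [him]; exact hm) hs1 hxs (hord m)).symm
  have heq := tendsto_nhds_unique hlim hbox
  have hπ : (π : ℂ) ≠ 0 := ofReal_ne_zero.2 Real.pi_ne_zero
  have key : (Real.log x : ℝ) * negLogDeriv s + deriv negLogDeriv s - (∑' ρ, zeroKer x s ρ) -
      smoothSum x s = -L / (2 * π) - (x : ℂ) ^ (1 - s) / (1 - s) ^ 2 := by
    obtain ⟨E, hE⟩ : ∃ E, E = (x : ℂ) ^ (1 - s) / (1 - s) ^ 2 := ⟨_, rfl⟩
    obtain ⟨N, hN⟩ : ∃ N, N = (Real.log x : ℝ) * negLogDeriv s + deriv negLogDeriv s := ⟨_, rfl⟩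
    rw [← hN, ← hE] at heq ⊢
    have h2 := mul_left_cancel₀ I_ne_zero
      (show I * (2 * π * smoothSum x s - L) = I * (2 * π * (N + E - ∑' ρ, zeroKer x s ρ)) by
        linear_combination heq)
    rw [eq_sub_iff_add_eq, eq_div_iff (mul_ne_zero two_ne_zero hπ)]
    linear_combination -h2
  rw [key]
  refine (norm_sub_le _ _).trans (add_le_add ?_ ?_)
  · rw [norm_div, norm_neg, norm_mul, RCLike.norm_ofNat, Complex.norm_real, Real.norm_eq_abs,
      abs_of_pos Real.pi_pos]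
    exact (div_le_self (norm_nonneg _) (by linarith [Real.two_le_pi])).trans hL
  · rw [norm_div, norm_pow, norm_shiftPow hx0, one_re, hre]
    have h1 : t ^ 2 ≤ ‖1 - s‖ ^ 2 := by
      rw [Complex.sq_norm, Complex.normSq_apply, sub_im, one_im, him]
      nlinarith [mul_self_nonneg ((1 - s).re)]
    have ht2 : 1 ≤ t ^ 2 := by nlinarith [sq_abs t]
    refine div_le_one_of_le₀ (le_trans ?_ h1) (by positivity)
    refine (Real.rpow_le_rpow_of_exponent_le hx (show 1 - u ≤ (1 / 2 : ℝ) by linarith)).trans ?_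
    rw [← Real.sqrt_eq_rpow, Real.sqrt_le_left (by positivity), ← pow_mul]
    exact hxt

end FA.ZetaUpper
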