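import Fermat.Agent.ZetaUpper.Formula
import Fermat.Agent.SelbergCLT.Shift
import Fermat.Agent.XiProduct.Criteria
import Fermat.Agent.StarkEffective.ZetaBound
import Fermat.Agent.Resonance.Inequality

/-!
# Soundararajan's inequality for `log |ζ (1/2 + it)|`

If the zeros of `ξ` have real part `1/2` then, with `σ = 1/2 + 1/log x`,
`log |ζ (1/2 + it)| ≤ re ∑_{n ≤ x} Λ n / (n^(σ + it) log n) · log (x/n) / log x
  + log t / log x + O (1)`: two functions monotone in `σ` replace the integrations.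
-/

set_option autoImplicit false

noncomputable section

namespace FA.ZetaUpper

open Complex Filter Topology MeasureTheory Set FA.RiemannMangoldt FA.ExplicitFormula
open FA.LindelofZeros (lineTerm pois hasSum_lineTerm)
open FA.SelbergCLT (logZeta hasDerivAt_logZeta)
open scoped Real ArithmeticFunction.vonMangoldt Chebyshev

/-- The zeros of `ξ` lie on the critical line. -/
def Critical : Prop := ∀ ρ : ℂ, xiFn ρ = 0 → ρ.re = 1 / 2

/-- `∑_{n ≤ x} Λ n / log n · log (x / n) n^(-s)`. -/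
def logSum (x : ℝ) (s : ℂ) : ℂ :=
  ∑ n ∈ Finset.Icc 1 ⌊x⌋₊, ((Λ n / Real.log n * Real.log (x / n) : ℝ) : ℂ) * (n : ℂ) ^ (-s)

variable {u u₀ t : ℝ}

theorem line_re (u t : ℝ) : ((u : ℂ) + t * I).re = u := by simp

theorem line_im (u t : ℝ) : ((u : ℂ) + t * I).im = t := by simp

theorem xiFn_ne_zero_of_gt (hRH : Critical) (hu : 1 / 2 < u) (t : ℝ) :
    xiFn ((u : ℂ) + t * I) ≠ 0 := fun h => by
  have := hRH _ h
  rw [line_re] at this
  linarith

theorem line_ne_one (ht : t ≠ 0) (u : ℝ) : ((u : ℂ) + t * I) ≠ 1 := fun h => ht (by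
  have := congrArg Complex.im h
  rwa [line_im, one_im] at this)

theorem zeta_ne_zero_of_gt (hRH : Critical) (hu : 1 / 2 < u) (ht : t ≠ 0) :
    riemannZeta ((u : ℂ) + t * I) ≠ 0 := fun h =>
  xiFn_ne_zero_of_gt hRH hu t
    ((xiFn_eq_zero_iff (by rw [line_re]; linarith) (line_ne_one ht u)).2 h)

theorem negLogDeriv_line (hRH : Critical) (hu : 1 / 2 < u) (ht : t ≠ 0) :
    negLogDeriv ((u : ℂ) + t * I) =
      -(deriv riemannZeta ((u : ℂ) + t * I) / riemannZeta ((u : ℂ) + t * I)) :=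
  negLogDeriv_eq (by rw [line_re]; linarith) (line_ne_one ht u) (zeta_ne_zero_of_gt hRH hu ht)

theorem re_xiLogDeriv_line_nonneg (hRH : Critical) (hu : 1 / 2 < u) (t : ℝ) :
    0 ≤ (xiLogDeriv ((u : ℂ) + t * I)).re := by
  refine (hasSum_lineTerm (xiFn_ne_zero_of_gt hRH hu t)).nonneg fun ρ => ?_
  by_cases hρ : xiFn ρ = 0
  · rw [lineTerm, pois, hRH ρ hρ]
    exact mul_nonneg (Nat.cast_nonneg _) (div_nonneg (by linarith) (by positivity))
  · simp [lineTerm, zeroWeight_eq_zero hρ]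

/-- `re (-ζ'/ζ)` against the zeros. -/
theorem re_negLogDeriv_le (hu : 1 / 2 ≤ u) (hu2 : u ≤ 2) (ht : 1 ≤ |t|) :
    (negLogDeriv ((u : ℂ) + t * I)).re ≤
      Real.log (|t| + 2) / 2 + 14 - (xiLogDeriv ((u : ℂ) + t * I)).re := by
  have hg := FA.PairCorrelation.norm_gammaReg_sub_log_le (s := (u : ℂ) + t * I)
    (by rw [line_re]; linarith) (by rw [line_re]; linarith)
  rw [line_im] at hg
  have h1 := norm_inv_sub_one_le (s := (u : ℂ) + t * I) one_pos (Or.inl (by rwa [line_im]))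
  have h2 := Complex.re_le_norm ((((u : ℂ) + t * I) - 1)⁻¹)
  have h3 := (Complex.re_le_norm _).trans hg
  rw [sub_re, ofReal_re] at h3
  rw [negLogDeriv, add_re, add_re, neg_re]
  linarith [h1.trans_eq (one_div_one)]

/-- **The zeros against `re (ξ'/ξ)`.** -/
theorem norm_tsum_zeroKer_le (hRH : Critical) {x : ℝ} (hx : 1 ≤ x) (h₀ : 1 / 2 < u₀)
    (hu : u₀ ≤ u) (t : ℝ) :
    ‖∑' ρ, zeroKer x ((u : ℂ) + t * I) ρ‖ ≤
      x ^ (1 / 2 - u) / (u₀ - 1 / 2) * (xiLogDeriv ((u₀ : ℂ) + t * I)).re := by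
  refine tsum_of_norm_bounded
    ((hasSum_lineTerm (xiFn_ne_zero_of_gt hRH h₀ t)).mul_left _) fun ρ => ?_
  by_cases hρ : xiFn ρ = 0
  swap
  · simp [zeroKer_eq_zero x _ hρ, lineTerm, zeroWeight_eq_zero hρ]
  rw [zeroKer, norm_mul, Complex.norm_natCast, norm_div, norm_shiftPow (by linarith), norm_pow,
    Complex.sq_norm, Complex.normSq_apply, sub_re, sub_im, line_re, line_im, lineTerm, pois,
    hRH ρ hρ, ← mul_assoc, mul_comm _ (zeroWeight ρ : ℝ), mul_assoc]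
  refine mul_le_mul_of_nonneg_left ?_ (Nat.cast_nonneg _)
  have h1 : 0 < u₀ - 1 / 2 := by linarith
  have h2 : 0 < (u₀ - 1 / 2) ^ 2 + (t - ρ.im) ^ 2 := by positivity
  have h3 : (u₀ - 1 / 2) ^ 2 + (t - ρ.im) ^ 2 ≤
      (1 / 2 - u) * (1 / 2 - u) + (ρ.im - t) * (ρ.im - t) := by nlinarith
  calc x ^ (1 / 2 - u) / ((1 / 2 - u) * (1 / 2 - u) + (ρ.im - t) * (ρ.im - t))
      ≤ x ^ (1 / 2 - u) / ((u₀ - 1 / 2) ^ 2 + (t - ρ.im) ^ 2) :=
        div_le_div_of_nonneg_left (Real.rpow_nonneg (by linarith) _) h2 h3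
    _ = _ := (div_mul_div_cancel₀ h1.ne').symm

theorem hasDerivAt_logSum (x u t : ℝ) :
    HasDerivAt (fun v : ℝ => (logSum x ((v : ℂ) + t * I)).re)
      (-(smoothSum x ((u : ℂ) + t * I))).re u := by
  have hlin : HasDerivAt (fun v : ℂ => v + t * I) 1 (u : ℂ) := (hasDerivAt_id' _).add_const _
  have hd : HasDerivAt (logSum x) (-(smoothSum x ((u : ℂ) + t * I))) ((u : ℂ) + t * I) := by
    rw [smoothSum, ← Finset.sum_neg_distrib]
    refine HasDerivAt.fun_sum fun n hn => ?_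
    rw [Finset.mem_Icc] at hn
    refine (((hasDerivAt_id' _).fun_neg.const_cpow
      (Or.inl (Nat.cast_ne_zero.2 (by omega)))).const_mul
      _).congr_deriv ?_
    rw [← Complex.natCast_log]
    rcases eq_or_ne n 1 with rfl | h1
    · simp
    have hl : Real.log n ≠ 0 := (Real.log_pos (Nat.one_lt_cast.2 (by omega))).ne'
    obtain ⟨l, hl0⟩ : ∃ l, l = Real.log n := ⟨_, rfl⟩
    rw [← hl0] at hl ⊢
    have hl' : (l : ℂ) ≠ 0 := ofReal_ne_zero.2 hl
    push_cast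
    field_simp
  have h := (Complex.reCLM.hasFDerivAt.comp_hasDerivAt u ((hd.comp (u : ℂ) hlin).comp_ofReal))
  simpa [Function.comp_def] using h

theorem hasDerivAt_re_negLogDeriv (hRH : Critical) (hu : 1 / 2 < u) (ht : t ≠ 0) :
    HasDerivAt (fun v : ℝ => (negLogDeriv ((v : ℂ) + t * I)).re)
      (deriv negLogDeriv ((u : ℂ) + t * I)).re u := by
  have hlin : HasDerivAt (fun v : ℂ => v + t * I) 1 (u : ℂ) := (hasDerivAt_id' _).add_const _
  have hd := (differentiableAt_negLogDeriv (s := (u : ℂ) + t * I) (by rw [line_re]; linarith)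
    (line_ne_one ht u) (xiFn_ne_zero_of_gt hRH hu t)).hasDerivAt
  have h := (Complex.reCLM.hasFDerivAt.comp_hasDerivAt u ((hd.comp (u : ℂ) hlin).comp_ofReal))
  simpa [Function.comp_def] using h

theorem norm_logSum_le {x : ℝ} (hx : 1 ≤ x) (s : ℂ) :
    ‖logSum x s‖ ≤
      Real.log x * ∑ n ∈ Finset.Icc 1 ⌊x⌋₊, Λ n / Real.log n * (n : ℝ) ^ (-s.re) := by
  rw [Finset.mul_sum]
  refine (norm_sum_le _ _).trans (Finset.sum_le_sum fun n hn => ?_)
  rw [Finset.mem_Icc] at hn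
  have h1 : (1 : ℝ) ≤ n := Nat.one_le_cast.2 hn.1
  have h2 : (n : ℝ) ≤ x := (Nat.cast_le.2 hn.2).trans (Nat.floor_le (by linarith))
  rw [norm_mul, Complex.norm_real, Complex.norm_natCast_cpow_of_pos (by omega), neg_re,
    Real.norm_eq_abs, abs_mul, abs_of_nonneg (div_nonneg ArithmeticFunction.vonMangoldt_nonneg
      (Real.log_natCast_nonneg n)),
    abs_of_nonneg (Real.log_nonneg ((one_le_div (by linarith)).2 h2)),
    mul_comm (Real.log x), mul_assoc, mul_assoc, mul_comm _ (Real.log x)]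
  refine mul_le_mul_of_nonneg_left
    (mul_le_mul_of_nonneg_right ?_ (Real.rpow_nonneg (by linarith) _))
    (div_nonneg ArithmeticFunction.vonMangoldt_nonneg (Real.log_natCast_nonneg n))
  exact Real.log_le_log (by positivity) (div_le_self (by linarith) h1)

theorem vonMangoldt_div_log_le_one (n : ℕ) : Λ n / Real.log n ≤ 1 :=
  div_le_one_of_le₀ ArithmeticFunction.vonMangoldt_le_log (Real.log_natCast_nonneg n)

/-- **At `σ = 1/2 + 1/log x`.** -/
theorem exists_shifted_upper : ∃ C, 0 ≤ C ∧ (Critical → ∀ x t : ℝ, 3 ≤ x → 1 ≤ |t| → x ≤ t ^ 4 →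
    Real.log x * logZeta (1 / 2 + 1 / Real.log x) t ≤
      (logSum x (((1 / 2 + 1 / Real.log x : ℝ) : ℂ) + t * I)).re + Real.log (|t| + 2) / 2 +
        C * Real.log x) := by
  obtain ⟨C, hC, hform⟩ := exists_smooth_formula
  obtain ⟨C₃, hC₃, hright⟩ := FA.PairCorrelation.exists_logDeriv_right
  have hsum : Summable fun n : ℕ => (n : ℝ) ^ (-(7 / 4) : ℝ) :=
    Real.summable_nat_rpow.2 (by norm_num)
  obtain ⟨K, hK⟩ : ∃ K, K = ∑' n : ℕ, (n : ℝ) ^ (-(7 / 4) : ℝ) := ⟨_, rfl⟩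
  have hK0 : 0 ≤ K := hK ▸ tsum_nonneg fun n => Real.rpow_nonneg (Nat.cast_nonneg n) _
  refine ⟨K + C₃ + 2 * C + 20, by positivity, fun hRH x t hx ht hxt => ?_⟩
  have hx0 : 0 < x := by linarith
  have ht0 : t ≠ 0 := fun h => by rw [h, abs_zero] at ht; norm_num at ht
  obtain ⟨L, hL⟩ : ∃ L, L = Real.log x := ⟨_, rfl⟩
  have hL1 : 1 ≤ L := by
    rw [hL, ← Real.log_exp 1]
    exact Real.log_le_log (Real.exp_pos 1) (le_trans Real.exp_one_lt_three.le hx)
  have hL0 : 0 < L := by linarith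
  rw [← hL]
  obtain ⟨u₀, hu₀⟩ : ∃ u₀, u₀ = 1 / 2 + 1 / L := ⟨_, rfl⟩
  rw [← hu₀]
  have hL' : 1 / L ≤ 1 := (div_le_one hL0).2 hL1
  have h₀ : 1 / 2 < u₀ := by rw [hu₀]; linarith [one_div_pos.2 hL0]
  have h₀' : u₀ ≤ 7 / 4 := by rw [hu₀]; linarith
  obtain ⟨F₀, hF₀⟩ : ∃ F₀, F₀ = (xiLogDeriv ((u₀ : ℂ) + t * I)).re := ⟨_, rfl⟩
  have hF₀0 : 0 ≤ F₀ := hF₀ ▸ re_xiLogDeriv_line_nonneg hRH h₀ t
  obtain ⟨φ, hφ⟩ : ∃ φ : ℝ → ℝ, φ = fun v : ℝ => -(L * logZeta v t) +
      (negLogDeriv ((v : ℂ) + t * I)).re + (logSum x ((v : ℂ) + t * I)).re +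
      F₀ * x ^ (1 / 2 - v) - C * v := ⟨_, rfl⟩
  obtain ⟨D, hD⟩ : ∃ D : ℝ → ℝ, D = fun v : ℝ => -(L * (deriv riemannZeta ((v : ℂ) + t * I) /
      riemannZeta ((v : ℂ) + t * I)).re) + (deriv negLogDeriv ((v : ℂ) + t * I)).re +
      (-(smoothSum x ((v : ℂ) + t * I))).re + F₀ * (-L * x ^ (1 / 2 - v)) - C := ⟨_, rfl⟩
  have hd : ∀ v : ℝ, 1 / 2 < v → HasDerivAt φ (D v) v := fun v hv => by
    have e1 : HasDerivAt (fun w : ℝ => x ^ (1 / 2 - w)) (-L * x ^ (1 / 2 - v)) v :=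
      (((hasDerivAt_id' v).const_sub (1 / 2)).const_rpow hx0).congr_deriv (by rw [hL]; ring)
    rw [hφ, hD]
    exact ((((((hasDerivAt_logZeta (line_ne_one ht0 v)
      (zeta_ne_zero_of_gt hRH hv ht0)).const_mul L).fun_neg).fun_add
        (hasDerivAt_re_negLogDeriv hRH hv ht0)).fun_add (hasDerivAt_logSum x v t)).fun_add
          (e1.const_mul F₀)).fun_sub (((hasDerivAt_id' v).const_mul C).congr_deriv (mul_one C))
  have hanti : AntitoneOn φ (Icc u₀ (7 / 4)) := by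
    refine antitoneOn_of_hasDerivWithinAt_nonpos (convex_Icc _ _)
      (fun v hv => (hd v (by linarith [hv.1])).continuousAt.continuousWithinAt)
      (fun v hv => (hd v (by linarith [(interior_subset hv).1])).hasDerivWithinAt) fun v hv => ?_
    obtain ⟨hv1, hv2⟩ := interior_subset hv
    have hv0 : 1 / 2 < v := by linarith
    have h := (Complex.re_le_norm _).trans (hform x v t (by linarith) hv0.le hv2 ht hxt
      (xiFn_ne_zero_of_gt hRH hv0 t))
    have hz := norm_tsum_zeroKer_le hRH (x := x) (by linarith) h₀ hv1 t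
    rw [← hF₀, show u₀ - 1 / 2 = 1 / L by rw [hu₀]; ring, div_div_eq_mul_div, div_one] at hz
    have hz' := (Complex.re_le_norm _).trans hz
    rw [← hL, negLogDeriv_line hRH hv0 ht0] at h
    simp only [sub_re, add_re, Complex.re_ofReal_mul, neg_re] at h
    rw [hD]
    simp only [neg_re]
    nlinarith
  have hend := hanti (left_mem_Icc.2 h₀') (right_mem_Icc.2 h₀') h₀'
  rw [hφ] at hend
  simp only at hend
  have e0 : x ^ (1 / 2 - u₀) ≤ 1 := Real.rpow_le_one_of_one_le_of_nonpos (by linarith) (by linarith)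
  have e1 : 0 ≤ x ^ (1 / 2 - (7 / 4 : ℝ)) := Real.rpow_nonneg hx0.le _
  have h7 : -((negLogDeriv (((7 / 4 : ℝ) : ℂ) + t * I)).re) ≤ C₃ := by
    rw [negLogDeriv_line hRH (by norm_num) ht0, neg_re, neg_neg]
    exact (Complex.re_le_norm _).trans (hright _ (by rw [line_re]; norm_num)
      (by rw [line_re]; norm_num))
  have hP : -((logSum x (((7 / 4 : ℝ) : ℂ) + t * I)).re) ≤ L * K := by
    refine (neg_le_abs _).trans ((Complex.abs_re_le_norm _).trans ?_)
    refine (norm_logSum_le (by linarith) _).trans ?_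
    rw [line_re, ← hL]
    refine mul_le_mul_of_nonneg_left (le_trans (Finset.sum_le_sum fun n _ => ?_)
      (hK ▸ hsum.sum_le_tsum _ fun n _ => Real.rpow_nonneg (Nat.cast_nonneg n) _)) hL0.le
    exact mul_le_of_le_one_left (Real.rpow_nonneg (Nat.cast_nonneg n) _)
      (vonMangoldt_div_log_le_one n)
  have hz7 : logZeta (7 / 4) t ≤ 2 := by
    have h1 := DLVP.norm_zeta_le_real (σ := 7 / 4) (s := ((7 / 4 : ℝ) : ℂ) + t * I) (by norm_num)
      (line_re _ _)
    have h2 := h1.trans (FA.StarkEff.norm_riemannZeta_le (σ := 7 / 4) (by norm_num))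
    rw [logZeta]
    refine (Real.log_le_sub_one_of_pos (norm_pos_iff.2
      (zeta_ne_zero_of_gt hRH (by norm_num) ht0))).trans ?_
    norm_num at h2 ⊢
    linarith
  have hre0 := re_negLogDeriv_le (u := u₀) h₀.le (by linarith) ht
  rw [← hF₀] at hre0
  have hF : F₀ * x ^ (1 / 2 - u₀) ≤ F₀ := mul_le_of_le_one_right hF₀0 e0
  nlinarith [mul_le_mul_of_nonneg_left hz7 hL0.le, mul_nonneg hF₀0 e1,
    mul_le_mul_of_nonneg_right hL1 hC₃, mul_le_mul_of_nonneg_right hL1 hC]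

/-- **Soundararajan's inequality.** -/
theorem exists_zeta_upper : ∃ C, 0 ≤ C ∧ (Critical → ∀ x t : ℝ, 3 ≤ x → 1 ≤ |t| → x ≤ t ^ 4 →
    ‖riemannZeta (1 / 2 + t * I)‖ ≤ Real.exp
      ((logSum x (((1 / 2 + 1 / Real.log x : ℝ) : ℂ) + t * I)).re / Real.log x +
        Real.log (|t| + 2) / Real.log x + C)) := by
  obtain ⟨C, hC, hup⟩ := exists_shifted_upper
  refine ⟨C + 14, by linarith, fun hRH x t hx ht hxt => ?_⟩
  have ht0 : t ≠ 0 := fun h => by rw [h, abs_zero] at ht; norm_num at ht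
  obtain ⟨L, hL⟩ : ∃ L, L = Real.log x := ⟨_, rfl⟩
  have hL1 : 1 ≤ L := by
    rw [hL, ← Real.log_exp 1]
    exact Real.log_le_log (Real.exp_pos 1) (le_trans Real.exp_one_lt_three.le hx)
  have hL0 : 0 < L := by linarith
  have hmain := hup hRH x t hx ht hxt
  rw [← hL] at hmain ⊢
  obtain ⟨u₀, hu₀⟩ : ∃ u₀, u₀ = 1 / 2 + 1 / L := ⟨_, rfl⟩
  rw [← hu₀] at hmain ⊢
  have hL' : 1 / L ≤ 1 := (div_le_one hL0).2 hL1
  have h₀ : 1 / 2 < u₀ := by rw [hu₀]; linarith [one_div_pos.2 hL0]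
  obtain ⟨B, hB⟩ : ∃ B, B = Real.log (|t| + 2) / 2 + 14 := ⟨_, rfl⟩
  have hB0 : 0 ≤ B := hB ▸ by
    have := Real.log_nonneg (show 1 ≤ |t| + 2 by linarith)
    positivity
  have hd : ∀ v : ℝ, 1 / 2 < v → HasDerivAt (fun w => logZeta w t + B * w)
      ((deriv riemannZeta ((v : ℂ) + t * I) / riemannZeta ((v : ℂ) + t * I)).re + B * 1) v :=
    fun v hv => (hasDerivAt_logZeta (line_ne_one ht0 v) (zeta_ne_zero_of_gt hRH hv ht0)).fun_add
      ((hasDerivAt_id' v).const_mul B)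
  have hmono : MonotoneOn (fun w => logZeta w t + B * w) (Ioc (1 / 2) u₀) := by
    refine monotoneOn_of_hasDerivWithinAt_nonneg (convex_Ioc _ _)
      (fun v hv => (hd v hv.1).continuousAt.continuousWithinAt)
      (fun v hv => (hd v (interior_subset hv).1).hasDerivWithinAt) fun v hv => ?_
    obtain ⟨hv1, hv2⟩ := interior_subset hv
    have h := re_negLogDeriv_le (u := v) hv1.le (by rw [hu₀] at hv2; linarith) ht
    rw [negLogDeriv_line hRH hv1 ht0, neg_re, ← hB] at h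
    linarith [re_xiLogDeriv_line_nonneg hRH hv1 t]
  obtain ⟨R, hR⟩ : ∃ R, R = (logSum x ((u₀ : ℂ) + t * I)).re / L + Real.log (|t| + 2) / L +
      (C + 14) := ⟨_, rfl⟩
  rw [← hR]
  have hev : ∀ᶠ v : ℝ in 𝓝[>] (1 / 2), ‖riemannZeta ((v : ℂ) + t * I)‖ ≤ Real.exp R := by
    filter_upwards [Ioo_mem_nhdsGT h₀] with v hv
    have h := hmono ⟨hv.1, hv.2.le⟩ ⟨h₀, le_rfl⟩ hv.2.le
    dsimp only at h
    have hgap : B * (u₀ - v) ≤ B * (1 / L) :=
      mul_le_mul_of_nonneg_left (by rw [hu₀]; linarith [hv.1]) hB0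
    have h2 : logZeta u₀ t ≤
        (logSum x ((u₀ : ℂ) + t * I)).re / L + Real.log (|t| + 2) / 2 / L + C := by
      rw [← add_div, div_add' _ _ _ hL0.ne', le_div_iff₀ hL0, mul_comm]
      exact hmain
    rw [← Real.exp_log (norm_pos_iff.2 (zeta_ne_zero_of_gt hRH hv.1 ht0)), Real.exp_le_exp,
      ← logZeta, hR]
    have : B * (1 / L) ≤ Real.log (|t| + 2) / 2 / L + 14 := by
      rw [hB, add_mul, mul_one_div]
      linarith
    have e : Real.log (|t| + 2) / L =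
        Real.log (|t| + 2) / 2 / L + Real.log (|t| + 2) / 2 / L := by ring
    linarith
  have hlim : Tendsto (fun v : ℝ => ‖riemannZeta ((v : ℂ) + t * I)‖) (𝓝[>] (1 / 2))
      (𝓝 ‖riemannZeta (((1 / 2 : ℝ) : ℂ) + t * I)‖) :=
    (((differentiableAt_riemannZeta (line_ne_one ht0 _)).continuousAt.comp'
      (f := fun v : ℝ => (v : ℂ) + t * I) (by fun_prop)).norm).continuousWithinAt
  have h := le_of_tendsto hlim hev
  rwa [show (((1 / 2 : ℝ) : ℂ)) = 1 / 2 by push_cast; rfl] at h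

/-- `∑_{n ≤ N} Λ n / √n ≪ √N`. -/
theorem exists_sum_div_sqrt_le : ∃ C, 0 ≤ C ∧ ∀ N : ℕ,
    ∑ n ∈ Finset.Icc 1 N, Λ n / √(n : ℝ) ≤ C * √(N : ℝ) := by
  obtain ⟨K, hK⟩ : ∃ K, K = Real.log 4 + 4 := ⟨_, rfl⟩
  have hK0 : 0 ≤ K := hK ▸ by positivity
  refine ⟨K + K, by positivity, fun N => ?_⟩
  suffices h : ∑ n ∈ Finset.Icc 1 N, Λ n / √(n : ℝ) ≤ ψ (N : ℝ) / √(N : ℝ) + K * √(N : ℝ) by
    refine h.trans ?_
    rw [add_mul]
    refine add_le_add ?_ le_rfl
    refine div_le_of_le_mul₀ (Real.sqrt_nonneg _) (by positivity) ?_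
    rw [mul_assoc, Real.mul_self_sqrt (Nat.cast_nonneg N), hK]
    exact Chebyshev.psi_le_const_mul_self (Nat.cast_nonneg N)
  induction N with
  | zero => simp
  | succ N ih =>
    have hpsi : ψ ((N + 1 : ℕ) : ℝ) = ψ (N : ℝ) + Λ (N + 1) := by
      rw [Chebyshev.psi, Chebyshev.psi, Nat.floor_natCast, Nat.floor_natCast,
        Finset.sum_Ioc_succ_top (Nat.zero_le _)]
    rw [Finset.sum_Icc_succ_top (by omega), hpsi]
    obtain ⟨a, ha⟩ : ∃ a, a = √(N : ℝ) := ⟨_, rfl⟩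
    obtain ⟨b, hb⟩ : ∃ b, b = √((N + 1 : ℕ) : ℝ) := ⟨_, rfl⟩
    rw [← ha] at ih
    rw [← hb, add_div]
    have hb0 : 0 < b := hb ▸ Real.sqrt_pos.2 (Nat.cast_pos.2 (Nat.succ_pos N))
    have hab : a ≤ b := ha ▸ hb ▸ Real.sqrt_le_sqrt (Nat.cast_le.2 (Nat.le_succ N))
    have hψ : ψ (N : ℝ) ≤ K * (a * a) := by
      rw [ha, Real.mul_self_sqrt (Nat.cast_nonneg N), hK]
      exact Chebyshev.psi_le_const_mul_self (Nat.cast_nonneg N)
    have key : ψ (N : ℝ) / a - ψ (N : ℝ) / b ≤ K * (b - a) := by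
      rcases Nat.eq_zero_or_pos N with rfl | hN
      · simp at ha
        simp [ha]
        positivity
      have ha0 : 0 < a := ha ▸ Real.sqrt_pos.2 (Nat.cast_pos.2 hN)
      rw [div_sub_div _ _ ha0.ne' hb0.ne', div_le_iff₀ (by positivity)]
      nlinarith [mul_le_mul_of_nonneg_right hψ (show 0 ≤ b - a by linarith),
        mul_le_mul_of_nonneg_left hab (show 0 ≤ K * (a * (b - a)) by
          have : 0 ≤ b - a := by linarith
          positivity)]
    linarith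

/-- The trivial bound for the sum over the prime powers up to `x`. -/
theorem exists_mangoldt_sum_le : ∃ C, 0 ≤ C ∧ ∀ x : ℝ, 3 ≤ x →
    ∑ n ∈ Finset.Icc 1 ⌊x⌋₊, Λ n / (√(n : ℝ) * Real.log n) ≤ C * (√x / Real.log x) := by
  obtain ⟨C, hC, hsum⟩ := exists_sum_div_sqrt_le
  refine ⟨8 + 2 * C, by positivity, fun x hx => ?_⟩
  have hx0 : 0 < x := by linarith
  have hl : 0 < Real.log x := Real.log_pos (by linarith)
  obtain ⟨q, hq⟩ : ∃ q, q = √(√x) := ⟨_, rfl⟩
  have hq0 : 0 < q := hq ▸ by positivity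
  have hqq : q * q = √x := hq ▸ Real.mul_self_sqrt (Real.sqrt_nonneg x)
  have hlq : Real.log x ≤ 4 * q := by
    have := Real.log_le_sub_one_of_pos hq0
    rw [hq, Real.log_sqrt (Real.sqrt_nonneg x), Real.log_sqrt hx0.le, ← hq] at this
    linarith
  rw [← Finset.sum_filter_add_sum_filter_not _ (fun n : ℕ => (n : ℝ) ≤ √x), add_mul]
  refine add_le_add ?_ ?_
  · refine (Finset.sum_le_sum (g := fun n : ℕ => 1 / √(n : ℝ)) fun n _ => ?_).trans
      ((Finset.sum_le_sum_of_subset_of_nonneg (t := Finset.Icc 1 ⌊√x⌋₊) (fun n hn => ?_)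
        fun n _ _ => by positivity).trans ?_)
    · rw [mul_comm, ← div_div]
      exact div_le_div_of_nonneg_right (vonMangoldt_div_log_le_one n) (Real.sqrt_nonneg _)
    · rw [Finset.mem_filter, Finset.mem_Icc] at hn
      exact Finset.mem_Icc.2 ⟨hn.1.1, Nat.le_floor hn.2⟩
    · refine (FA.Resonance.sum_inv_sqrt_le _).trans ?_
      rw [mul_div_assoc', le_div_iff₀ hl]
      have h1 : √(⌊√x⌋₊ : ℝ) ≤ q := hq ▸ Real.sqrt_le_sqrt (Nat.floor_le (Real.sqrt_nonneg x))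
      nlinarith [mul_le_mul h1 hlq hl.le hq0.le]
  · refine (Finset.sum_le_sum (g := fun n : ℕ => 2 / Real.log x * (Λ n / √(n : ℝ)))
      fun n hn => ?_).trans ?_
    · rw [Finset.mem_filter, not_le, Finset.mem_Icc] at hn
      have h2 : Real.log x / 2 ≤ Real.log n := by
        rw [← Real.log_sqrt hx0.le]
        exact Real.log_le_log (Real.sqrt_pos.2 hx0) hn.2.le
      rw [mul_comm (√(n : ℝ)), ← div_div, div_right_comm, mul_comm (2 / Real.log x),
        div_eq_mul_one_div _ (Real.log n)]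
      refine mul_le_mul_of_nonneg_left ?_
        (div_nonneg ArithmeticFunction.vonMangoldt_nonneg (Real.sqrt_nonneg _))
      rw [div_le_div_iff₀ (by linarith) hl]
      linarith
    · rw [← Finset.mul_sum]
      refine (mul_le_mul_of_nonneg_left ((Finset.sum_le_sum_of_subset_of_nonneg
        (Finset.filter_subset _ _) fun n _ _ => div_nonneg ArithmeticFunction.vonMangoldt_nonneg
          (Real.sqrt_nonneg _)).trans ((hsum _).trans (mul_le_mul_of_nonneg_left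
            (Real.sqrt_le_sqrt (Nat.floor_le hx0.le)) hC))) (by positivity)).trans (le_of_eq ?_)
      ring

/-- **Littlewood's bound.** -/
theorem exists_zeta_half_bound : ∃ C, 0 ≤ C ∧ (Critical → ∀ᶠ t : ℝ in atTop,
    ‖riemannZeta (1 / 2 + t * I)‖ ≤ Real.exp (C * (Real.log t / Real.log (Real.log t)))) := by
  obtain ⟨C, hC, hup⟩ := exists_zeta_upper
  obtain ⟨K, hK, hsum⟩ := exists_mangoldt_sum_le
  refine ⟨K + 1 + C, by positivity, fun hRH => ?_⟩
  filter_upwards [eventually_ge_atTop (4 : ℝ), Real.tendsto_log_atTop.eventually_ge_atTop 3]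
    with t ht hlt
  obtain ⟨l, hl⟩ : ∃ l, l = Real.log t := ⟨_, rfl⟩
  rw [← hl] at hlt ⊢
  have hll : 1 ≤ Real.log l := by
    rw [← Real.log_exp 1]
    exact Real.log_le_log (Real.exp_pos 1) (le_trans Real.exp_one_lt_three.le hlt)
  obtain ⟨x, hx⟩ : ∃ x, x = l ^ 2 := ⟨_, rfl⟩
  have hlx : Real.log x = 2 * Real.log l := by rw [hx, Real.log_pow]; norm_num
  have hsx : √x = l := by rw [hx, Real.sqrt_sq (by linarith)]
  have hlt' : l ≤ t := hl ▸ Real.log_le_self (by linarith)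
  have h := hup hRH x t (by rw [hx]; nlinarith) (by rw [abs_of_pos (by linarith)]; linarith)
    (by rw [hx]; calc l ^ 2 ≤ t ^ 2 := pow_le_pow_left₀ (by linarith) hlt' 2
          _ ≤ t ^ 4 := pow_le_pow_right₀ (by linarith) (by norm_num))
  refine h.trans (Real.exp_le_exp.2 ?_)
  have hx3 : 3 ≤ x := by rw [hx]; nlinarith
  have hLp : 0 < Real.log x := by rw [hlx]; linarith
  have h1 : (logSum x (((1 / 2 + 1 / Real.log x : ℝ) : ℂ) + t * I)).re / Real.log x ≤
      K * (√x / Real.log x) := by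
    rw [div_le_iff₀ hLp]
    refine (Complex.re_le_norm _).trans ((norm_logSum_le (by linarith) _).trans
      ((mul_le_mul_of_nonneg_left (le_trans (Finset.sum_le_sum fun n hn => ?_) (hsum x hx3))
        hLp.le).trans_eq (mul_comm _ _)))
    rw [Finset.mem_Icc] at hn
    rw [line_re, mul_comm (√(n : ℝ)), ← div_div, div_eq_mul_inv _ (√(n : ℝ))]
    refine mul_le_mul_of_nonneg_left ?_
      (div_nonneg ArithmeticFunction.vonMangoldt_nonneg (Real.log_natCast_nonneg n))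
    rw [Real.sqrt_eq_rpow, ← Real.rpow_neg (Nat.cast_nonneg n)]
    exact Real.rpow_le_rpow_of_exponent_le (Nat.one_le_cast.2 hn.1)
      (by linarith [one_div_pos.2 hLp])
  rw [hsx, hlx] at h1
  have h2 : Real.log (|t| + 2) ≤ 2 * l := by
    rw [abs_of_pos (by linarith), hl, show 2 * Real.log t = Real.log (t ^ 2) by
      rw [Real.log_pow]; norm_num]
    exact Real.log_le_log (by linarith) (by nlinarith)
  have h3 : Real.log (|t| + 2) / Real.log x ≤ l / Real.log l := by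
    rw [hlx, div_le_div_iff₀ (by linarith) (by linarith)]
    nlinarith
  have h4 : 1 ≤ l / Real.log l := by
    rw [le_div_iff₀ (by linarith), one_mul]
    exact Real.log_le_self (by linarith)
  have h5 : l / (2 * Real.log l) ≤ l / Real.log l :=
    div_le_div_of_nonneg_left (by linarith) (by linarith) (by linarith)
  rw [hlx] at h3 ⊢
  nlinarith [mul_le_mul_of_nonneg_left h5 hK, mul_le_mul_of_nonneg_left h4 hC]

end FA.ZetaUpper
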