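import Fermat.Agent.ExplicitFormula.Residue
import Mathlib.Analysis.MellinInversion
import Mathlib.Analysis.SpecialFunctions.ImproperIntegrals

/-!
# The kernel `y ^ w / w ^ 2`

On `re w = c > 0` its integral is `2π max (log y, 0)`, on `re w = c < 0` it vanishes for `y ≥ 1`;
around a rectangle `φ s / (s - c) ^ 2` has residue `φ' c`.
-/

set_option autoImplicit false

noncomputable section

namespace FA.ZetaUpper

open Complex MeasureTheory Filter Topology Set Asymptotics
open FA.ExplicitFormula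
open scoped Real

/-- The indicator of `(0, 1]`. -/
def unitStep : ℝ → ℂ := (Ioc 0 1).indicator fun _ => 1

/-- `log` on `(0, 1]`. -/
def logStep (u : ℝ) : ℂ := Real.log u • unitStep u

theorem hasMellin_logStep {s : ℂ} (hs : 0 < s.re) :
    MellinConvergent logStep s ∧ mellin logStep s = -(1 / s ^ 2) := by
  have hloc : LocallyIntegrableOn unitStep (Set.Ioi 0) := by
    refine (Integrable.locallyIntegrable ?_).locallyIntegrableOn _
    exact (integrableOn_const (by simp)).integrable_indicator measurableSet_Ioc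
  have htop : unitStep =O[atTop] fun u : ℝ => u ^ (-(s.re + 1)) := by
    refine (Eventually.isBigO (f := unitStep) (g := fun _ => (0 : ℝ)) ?_).trans (isBigO_zero _ _)
    filter_upwards [eventually_gt_atTop (1 : ℝ)] with u hu
    simp [unitStep, indicator_of_notMem (show u ∉ Ioc (0 : ℝ) 1 from fun h => hu.not_ge h.2)]
  have hbot : unitStep =O[𝓝[>] 0] fun u : ℝ => u ^ (-(0 : ℝ)) := by
    refine IsBigO.of_bound 1 (Eventually.of_forall fun u => ?_)
    rw [one_mul, neg_zero, Real.rpow_zero, norm_one, unitStep]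
    exact (norm_indicator_le_norm_self _ _).trans (by simp)
  obtain ⟨h1, h2⟩ := mellin_hasDerivAt_of_isBigO_rpow (a := s.re + 1) (b := 0) hloc htop
    (by linarith) hbot hs
  refine ⟨h1, ?_⟩
  have h3 : HasDerivAt (mellin unitStep) (-(1 / s ^ 2)) s := by
    have hne : s ≠ 0 := fun h => by simp [h] at hs
    refine ((hasDerivAt_inv hne).congr_deriv (by simp)).congr_of_eventuallyEq ?_
    filter_upwards [(isOpen_lt continuous_const continuous_re).mem_nhds hs] with w hw
    rw [show mellin unitStep w = 1 / w from (hasMellin_one_Ioc hw).2, one_div]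
  exact h2.unique h3

theorem logStep_eq {u : ℝ} (hu : 0 < u) : logStep u = ((min (Real.log u) 0 : ℝ) : ℂ) := by
  rw [logStep, unitStep]
  by_cases h : u ≤ 1
  · rw [indicator_of_mem (mem_Ioc.2 ⟨hu, h⟩), min_eq_left (Real.log_nonpos hu.le h)]
    simp
  · rw [indicator_of_notMem (fun h' => h h'.2),
      min_eq_right (Real.log_nonneg (not_le.1 h).le)]
    simp

theorem continuousAt_logStep {u : ℝ} (hu : 0 < u) : ContinuousAt logStep u := by
  have hc : ContinuousAt (fun u : ℝ => ((min (Real.log u) 0 : ℝ) : ℂ)) u :=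
    Complex.continuous_ofReal.continuousAt.comp
      ((Real.continuousAt_log hu.ne').min continuousAt_const)
  refine hc.congr ?_
  filter_upwards [isOpen_Ioi.mem_nhds hu] with r hr
  exact (logStep_eq hr).symm

theorem norm_line_sq_inv_le {c : ℝ} (hc : c ≠ 0) (v : ℝ) :
    ‖(1 : ℂ) / ((c : ℂ) + v * I) ^ 2‖ ≤ (1 + 1 / c ^ 2) * (1 + v ^ 2)⁻¹ := by
  have hc2 : 0 < c ^ 2 := by positivity
  rw [norm_div, norm_one, norm_pow, Complex.sq_norm, Complex.normSq_add_mul_I,
    ← div_eq_mul_inv, div_le_div_iff₀ (by positivity) (by positivity), one_mul]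
  have : 0 ≤ v ^ 2 / c ^ 2 := by positivity
  calc 1 + v ^ 2 ≤ c ^ 2 + 1 + v ^ 2 + v ^ 2 / c ^ 2 := by linarith
    _ = (1 + 1 / c ^ 2) * (c ^ 2 + v ^ 2) := by field_simp; ring

/-- **The kernel to the right.** -/
theorem integral_perron_sq {c y : ℝ} (hc : 0 < c) (hy : 0 < y) :
    ∫ v : ℝ, (y : ℂ) ^ ((c : ℂ) + v * I) / ((c : ℂ) + v * I) ^ 2 =
      2 * π * ((max (Real.log y) 0 : ℝ) : ℂ) := by
  have hv : VerticalIntegrable (mellin logStep) c := by
    unfold VerticalIntegrable
    have e : ∀ v : ℝ, mellin logStep ((c : ℂ) + v * I) = -(1 / ((c : ℂ) + v * I) ^ 2) := fun v =>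
      (hasMellin_logStep (by simpa using hc)).2
    simp only [e]
    refine (integrable_inv_one_add_sq.const_mul (1 + 1 / c ^ 2)).mono' ?_
      (Eventually.of_forall fun v => by rw [norm_neg]; exact norm_line_sq_inv_le hc.ne' v)
    refine (Continuous.neg (continuous_const.div (by fun_prop) fun v => ?_)).aestronglyMeasurable
    exact pow_ne_zero _ fun h => by simpa [hc.ne'] using congrArg Complex.re h
  have h := mellinInv_mellin_eq c logStep (inv_pos.2 hy)
    (hasMellin_logStep (by simpa using hc)).1 hv (continuousAt_logStep (inv_pos.2 hy))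
  rw [logStep_eq (inv_pos.2 hy), Real.log_inv, mellinInv, Complex.real_smul] at h
  have e : ∀ v : ℝ, ((y⁻¹ : ℝ) : ℂ) ^ (-((c : ℂ) + v * I)) • mellin logStep ((c : ℂ) + v * I) =
      -((y : ℂ) ^ ((c : ℂ) + v * I) / ((c : ℂ) + v * I) ^ 2) := fun v => by
    rw [(hasMellin_logStep (by simpa using hc)).2, Complex.ofReal_inv, inv_cpow _ _ (by
      rw [Complex.arg_ofReal_of_nonneg hy.le]; exact Real.pi_pos.ne), cpow_neg, inv_inv,
      smul_eq_mul]
    ring
  simp only [e, integral_neg] at h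
  rw [show min (-Real.log y) 0 = -max (Real.log y) 0 by rw [← neg_zero, min_neg_neg, neg_zero]]
    at h
  have hπ : (π : ℂ) ≠ 0 := ofReal_ne_zero.2 Real.pi_ne_zero
  obtain ⟨J, hJ⟩ : ∃ J, J = ∫ v : ℝ, (y : ℂ) ^ ((c : ℂ) + v * I) / ((c : ℂ) + v * I) ^ 2 :=
    ⟨_, rfl⟩
  rw [← hJ] at h ⊢
  push_cast at h ⊢
  field_simp at h ⊢
  linear_combination -h

/-- **The kernel to the left.** -/
theorem integral_perron_sq_left {c y : ℝ} (hc : c < 0) (hy : 1 ≤ y) :
    ∫ v : ℝ, (y : ℂ) ^ ((c : ℂ) + v * I) / ((c : ℂ) + v * I) ^ 2 = 0 := by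
  have hy0 : 0 < y := by linarith
  have h := integral_perron_sq (c := -c) (neg_pos.2 hc) (inv_pos.2 hy0)
  rw [Real.log_inv, max_eq_right (by linarith [Real.log_nonneg hy])] at h
  rw [← integral_neg_eq_self]
  refine Eq.trans (integral_congr_ae (Eventually.of_forall fun v => ?_)) (h.trans (by simp))
  dsimp only
  rw [Complex.ofReal_inv, inv_cpow _ _ (by
      rw [Complex.arg_ofReal_of_nonneg hy0.le]; exact Real.pi_pos.ne), ← cpow_neg]
  congr 1
  · congr 1; push_cast; ring
  · push_cast; ring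

variable {a b T : ℝ}

/-- The double pole has no residue. -/
theorem boxInt_inv_sq {c : ℂ} (hne : ∀ s ∈ boxEdges a b T, s ≠ c) :
    boxInt (fun s => 1 / (s - c) ^ 2) a b T = 0 := by
  have key : ∀ (p q : ℝ) (f : ℝ → ℂ) (d : ℂ), (∀ v ∈ uIcc p q, HasDerivAt f d v ∧ f v ≠ c) →
      d * ∫ v in p..q, 1 / (f v - c) ^ 2 = -(f q - c)⁻¹ + (f p - c)⁻¹ := by
    intro p q f d hf
    have hd : ∀ v ∈ uIcc p q,
        HasDerivAt (fun v => -(f v - c)⁻¹) (d * (1 / (f v - c) ^ 2)) v := fun v hv => by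
      obtain ⟨h1, h2⟩ := hf v hv
      refine (((hasDerivAt_inv (sub_ne_zero.2 h2)).comp v (h1.sub_const c)).neg).congr_deriv ?_
      ring
    have hi : IntervalIntegrable (fun v => d * (1 / (f v - c) ^ 2)) volume p q := by
      refine ContinuousOn.intervalIntegrable fun v hv => ?_
      obtain ⟨h1, h2⟩ := hf v hv
      exact (continuousAt_const.mul (continuousAt_const.div ((h1.continuousAt.sub
        continuousAt_const).pow 2) (pow_ne_zero _ (sub_ne_zero.2 h2)))).continuousWithinAt
    rw [← intervalIntegral.integral_const_mul,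
      intervalIntegral.integral_eq_sub_of_hasDerivAt hd hi]
    ring
  have hhor : ∀ e u : ℝ, HasDerivAt (fun v : ℝ => (v : ℂ) + (e : ℂ) * I) 1 u := fun e u => by
    simpa using (Complex.ofRealCLM.hasDerivAt (x := u)).add_const ((e : ℂ) * I)
  have hver : ∀ e u : ℝ, HasDerivAt (fun v : ℝ => (e : ℂ) + (v : ℂ) * I) I u := fun e u => by
    simpa using ((Complex.ofRealCLM.hasDerivAt (x := u)).mul_const I).const_add (e : ℂ)
  have h1 := key a b _ 1 fun v hv => ⟨hhor (-T) v, hne _ (edge_bottom hv)⟩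
  have h2 := key a b _ 1 fun v hv => ⟨hhor T v, hne _ (edge_top hv)⟩
  have h3 := key (-T) T _ I fun v hv => ⟨hver b v, hne _ (edge_right hv)⟩
  have h4 := key (-T) T _ I fun v hv => ⟨hver a v, hne _ (edge_left hv)⟩
  unfold boxInt
  linear_combination h1 - h2 + h3 - h4

/-- **The residue of a double pole.** -/
theorem boxInt_residue_sq {φ : ℂ → ℂ} {U : Set ℂ} (hU : IsOpen U) (hφ : DifferentiableOn ℂ φ U)
    (hbox : ∀ s : ℂ, s.re ∈ Icc a b → s.im ∈ Icc (-T) T → s ∈ U) (hT : 0 ≤ T) {c : ℂ}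
    (ha : a < c.re) (hb : c.re < b) (hi : |c.im| < T) :
    boxInt (fun s => φ s / (s - c) ^ 2) a b T = 2 * π * I * deriv φ c := by
  have hcU : c ∈ U := hbox c ⟨ha.le, hb.le⟩ (abs_le.1 hi.le)
  have hd : DifferentiableOn ℂ (dslope φ c) U :=
    (differentiableOn_dslope (hU.mem_nhds hcU)).2 hφ
  have hne : ∀ s ∈ boxEdges a b T, s ≠ c := fun s hs => interior_not_edge ha hb hi.ne hT hs
  have hedge : ∀ s ∈ boxEdges a b T, s ∈ U := fun s hs => by
    obtain ⟨h1, h2, -⟩ := hs
    rw [uIcc_of_le (by linarith)] at h1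
    rw [uIcc_of_le (by linarith)] at h2
    exact hbox s h1 h2
  rw [boxInt_congr (G := fun s => dslope φ c s / (s - c) + φ c * (1 / (s - c) ^ 2)) fun s hs => ?_,
    boxInt_add (F := fun s => dslope φ c s / (s - c)) (G := fun s => φ c * (1 / (s - c) ^ 2))
      (fun s hs => ((hd.differentiableAt (hU.mem_nhds (hedge s hs))).continuousAt).div
        (continuousAt_id.sub continuousAt_const) (sub_ne_zero.2 (hne s hs)))
      (fun s hs => continuousAt_const.mul (continuousAt_const.div
        ((continuousAt_id.sub continuousAt_const).pow 2)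
        (pow_ne_zero _ (sub_ne_zero.2 (hne s hs))))),
    boxInt_const_mul, boxInt_inv_sq hne, boxInt_residue hU hd hbox hT ha hb hi.ne, if_pos hi,
    dslope_same, mul_zero, add_zero]
  have h0 := sub_ne_zero.2 (hne s hs)
  simp only [dslope_of_ne _ (hne s hs), slope, vsub_eq_sub, smul_eq_mul]
  field_simp
  ring

end FA.ZetaUpper
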