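import Fermat.Agent.ZetaUpper.PrimeSums
import Mathlib.Analysis.SpecialFunctions.Pow.Asymptotics

/-!
# The large values of `ζ` on the critical line

If the zeros of `ξ` have real part `1/2` then for `L = log log T` and `δ L ≤ V` the set of
`t ∈ [T, 2 T]` with `|ζ (1/2 + it)| ≥ e ^ V` has measure
`≪ T (e ^ (-(1 - 13 δ) V ^ 2 / L) + e ^ (-m V))`.
-/

set_option autoImplicit false

noncomputable section

namespace FA.ZetaUpper

open Filter MeasureTheory
open FA.ErdosKac (primesUpTo mem_primesUpTo)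
open FA.SelbergCLT (primePoly sqMass continuous_primePoly)
open scoped Real Topology

/-- The `t ∈ [T, 2 T]` with `e ^ V ≤ |ζ (1/2 + it)|`. -/
def largeSet (T : ℝ) (V : ℕ) : Set ℝ :=
  {t ∈ Set.Icc T (2 * T) | Real.exp V ≤ ‖riemannZeta (1 / 2 + t * Complex.I)‖}

/-- The constants against `log log T`. -/
theorem eventually_logLog (δ c : ℝ) (hδ : 0 < δ) (K M : ℝ) :
    ∀ᶠ L : ℝ in atTop, 1 ≤ L ∧ K ≤ δ * L ∧ M ≤ L ∧
      Real.log L + K ≤ 8 * δ ^ 2 * Real.exp (-c) * L := by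
  obtain ⟨e, he⟩ : ∃ e, e = 4 * δ ^ 2 * Real.exp (-c) := ⟨_, rfl⟩
  have he0 : 0 < e := he ▸ by positivity
  filter_upwards [eventually_ge_atTop (1 : ℝ), eventually_ge_atTop (K / δ), eventually_ge_atTop M,
    eventually_ge_atTop (K / e), Real.isLittleO_log_id_atTop.bound he0] with L h1 h2 h3 h4 h5
  rw [div_le_iff₀' hδ] at h2
  rw [div_le_iff₀' he0] at h4
  rw [id, Real.norm_eq_abs, Real.norm_eq_abs, abs_of_pos (show 0 < L by linarith)] at h5
  refine ⟨h1, h2, h3, ?_⟩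
  rw [show 8 * δ ^ 2 * Real.exp (-c) * L = e * L + e * L by rw [he]; ring]
  linarith [le_abs_self (Real.log L)]

/-- The tail with `l = ⌊X⌋`. -/
theorem mul_exp_neg_le {δ X : ℝ} (hδ : 0 < δ) :
    X * Real.exp (-X) ≤ Real.exp (-((1 - δ) * X)) / δ := by
  rw [le_div_iff₀ hδ, show -((1 - δ) * X) = δ * X + -X by ring, Real.exp_add]
  have : δ * X ≤ Real.exp (δ * X) := by linarith [Real.add_one_le_exp (δ * X)]
  nlinarith [Real.exp_pos (-X)]

theorem exp_neg_mul_min_le {a b c : ℝ} :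
    Real.exp (-(c * min a b)) ≤ Real.exp (-(c * a)) + Real.exp (-(c * b)) := by
  rcases min_cases a b with ⟨h, -⟩ | ⟨h, -⟩ <;> rw [h] <;>
    linarith [Real.exp_pos (-(c * a)), Real.exp_pos (-(c * b))]

/-- **The large values.** -/
theorem exists_largeSet_le (hRH : Critical) {δ : ℝ} (hδ : 0 < δ) (hδ13 : 13 * δ ≤ 1) (m : ℕ) :
    ∃ C, 0 ≤ C ∧ ∀ᶠ T : ℝ in atTop, ∀ V : ℕ, δ * Real.log (Real.log T) ≤ V →
      volume (largeSet T V) ≤ ENNReal.ofReal (C * T *
        (Real.exp (-((1 - 13 * δ) * (V : ℝ) ^ 2 / Real.log (Real.log T))) +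
          Real.exp (-((m : ℝ) * V)))) := by
  obtain ⟨Cz, hCz, hzeta⟩ := exists_zeta_upper
  obtain ⟨Cd, hCd, hdec⟩ := exists_logSum_le
  obtain ⟨Cv, hCv, hv1, hv2, hv3⟩ := exists_sqMass_le
  obtain ⟨Cl, hCl, hhalf⟩ := exists_zeta_half_bound
  obtain ⟨c, hc⟩ : ∃ c, c = 9 * ((m : ℝ) + 2) / δ := ⟨_, rfl⟩
  have hc0 : 0 ≤ c := hc ▸ by positivity
  obtain ⟨K, hK⟩ : ∃ K, K = 2 * Cl + 1 := ⟨_, rfl⟩
  have hK0 : 0 < K := hK ▸ by linarith
  obtain ⟨C, hC⟩ : ∃ C, C = 5 * Real.exp 1 * (Real.exp 1 / δ) + 5 * Real.exp 1 +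
      5 * Real.exp 1 := ⟨_, rfl⟩
  refine ⟨C, hC ▸ by positivity, ?_⟩
  obtain ⟨t₀, ht₀⟩ := eventually_atTop.1 (hhalf hRH)
  obtain ⟨R, hR⟩ : ∃ R, R = 8 / δ ^ 2 + 2 * δ * K + 1 + 3 * (2 * (m : ℝ) + 2) / δ +
      72 / δ ^ 2 := ⟨_, rfl⟩
  filter_upwards [eventually_ge_atTop (max 4 t₀),
    (Real.tendsto_log_atTop.comp Real.tendsto_log_atTop).eventually
      (eventually_logLog δ c hδ (Cz + Cd + Cv + 1 + (Cz + Cd) / δ) R)] with T hT hev V hV
  rw [max_le_iff] at hT
  obtain ⟨hT4, hTt₀⟩ := hT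
  obtain ⟨l, hl⟩ : ∃ l, l = Real.log T := ⟨_, rfl⟩
  obtain ⟨L, hL⟩ : ∃ L, L = Real.log l := ⟨_, rfl⟩
  simp only [Function.comp] at hev
  rw [← hl, ← hL] at hV hev ⊢
  obtain ⟨hL1, hLK, hLR, hLlog⟩ := hev
  have hT0 : 0 < T := by linarith
  have hl0 : 0 < l := hl ▸ Real.log_pos (by linarith)
  have hm0 : (0 : ℝ) ≤ m := Nat.cast_nonneg m
  have hdiv : 0 ≤ (Cz + Cd) / δ := by positivity
  have hR1 : 8 ≤ δ ^ 2 * L := by
    rw [← div_le_iff₀' (by positivity)]
    linarith [show 0 ≤ 2 * δ * K by positivity, show 0 ≤ 3 * (2 * (m : ℝ) + 2) / δ by positivity,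
      show 0 ≤ 72 / δ ^ 2 by positivity]
  have hR2 : 2 * δ * K ≤ L := by
    linarith [show 0 ≤ 8 / δ ^ 2 by positivity, show 0 ≤ 3 * (2 * (m : ℝ) + 2) / δ by positivity,
      show 0 ≤ 72 / δ ^ 2 by positivity]
  have hR3 : 3 * (2 * (m : ℝ) + 2) ≤ δ * L := by
    rw [← div_le_iff₀' hδ]
    linarith [show 0 ≤ 8 / δ ^ 2 by positivity, show 0 ≤ 2 * δ * K by positivity,
      show 0 ≤ 72 / δ ^ 2 by positivity]
  have hR4 : 72 ≤ δ ^ 2 * L := by
    rw [← div_le_iff₀' (by positivity)]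
    linarith [show 0 ≤ 8 / δ ^ 2 by positivity, show 0 ≤ 2 * δ * K by positivity,
      show 0 ≤ 3 * (2 * (m : ℝ) + 2) / δ by positivity]
  have hδV : δ ^ 2 * L ≤ δ * V := by
    rw [sq, mul_assoc]
    exact mul_le_mul_of_nonneg_left hV hδ.le
  have hδ1 : δ ≤ 1 := by linarith
  have hV0 : 0 < (V : ℝ) := lt_of_lt_of_le (mul_pos hδ (by linarith)) hV
  have hδVV : δ * V ≤ V := mul_le_of_le_one_left hV0.le hδ1
  -- Littlewood's bound
  rcases Set.eq_empty_or_nonempty (largeSet T V) with he | ⟨t₁, ⟨ht₁, ht₁'⟩, hexp⟩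
  · rw [he, measure_empty]
    exact zero_le
  have hVK : (V : ℝ) * L ≤ K * l := by
    have h := hexp.trans (ht₀ t₁ (by linarith))
    rw [Real.exp_le_exp] at h
    have h1 : l ≤ Real.log t₁ := hl ▸ Real.log_le_log hT0 ht₁
    have h2 : Real.log t₁ ≤ 2 * l := by
      rw [hl, show 2 * Real.log T = Real.log (T ^ 2) by rw [Real.log_pow]; norm_num]
      exact Real.log_le_log (by linarith) (by
        rw [sq]
        linarith [mul_le_mul_of_nonneg_right hT4 hT0.le])
    have h3 : L ≤ Real.log (Real.log t₁) := hL ▸ Real.log_le_log hl0 h1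
    have h4 : Real.log t₁ / Real.log (Real.log t₁) ≤ 2 * l / L :=
      div_le_div₀ (by linarith) h2 (by linarith) h3
    have h5 := h.trans (mul_le_mul_of_nonneg_left h4 hCl)
    rw [mul_div_assoc', le_div_iff₀ (by linarith)] at h5
    rw [hK]
    linarith
  obtain ⟨x, hx⟩ : ∃ x, x = Real.exp (l / (δ * V)) := ⟨_, rfl⟩
  obtain ⟨z, hz⟩ : ∃ z, z = Real.exp (l / (δ * V * L)) := ⟨_, rfl⟩
  have hlx : Real.log x = l / (δ * V) := by rw [hx, Real.log_exp]
  have hlx2 : 2 ≤ l / (δ * V) := by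
    rw [le_div_iff₀ (by positivity)]
    refine le_of_mul_le_mul_left ?_ (mul_pos hδ hK0)
    calc δ * K * (2 * (δ * V)) = δ * ((V : ℝ) * (2 * δ * K)) := by ring
      _ ≤ δ * ((V : ℝ) * L) :=
          mul_le_mul_of_nonneg_left (mul_le_mul_of_nonneg_left hR2 hV0.le) hδ.le
      _ ≤ δ * (K * l) := mul_le_mul_of_nonneg_left hVK hδ.le
      _ = _ := by ring
  have hx3 : 3 ≤ x := by
    rw [hx]
    linarith [Real.add_one_le_exp (l / (δ * V))]
  have hzx : z ≤ x := by
    rw [hx, hz, Real.exp_le_exp]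
    exact div_le_div_of_nonneg_left hl0.le (by positivity)
      (le_mul_of_one_le_right (by positivity) hL1)
  have hzT : z ≤ T := by
    rw [hz, ← Real.exp_log hT0, ← hl, Real.exp_le_exp]
    refine div_le_self hl0.le ?_
    exact one_le_mul_of_one_le_of_one_le (by linarith) hL1
  have hzlog : Real.log x ≤ L * Real.log z := by
    rw [hlx, hz, Real.log_exp]
    refine le_of_eq ?_
    field_simp
  obtain ⟨a, ha⟩ : ∃ a, a = (1 - 5 * δ) * V := ⟨_, rfl⟩
  have haV : (V : ℝ) / 2 ≤ a := by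
    rw [ha]
    linarith [mul_le_mul_of_nonneg_right (show (1 / 2 : ℝ) ≤ 1 - 5 * δ by linarith) hV0.le]
  -- the three sets
  have hsub : largeSet T V ⊆
      {t ∈ Set.Icc T (2 * T) | a < ‖primePoly (primesUpTo ⌊z⌋₊) (lineCoeff x) t‖} ∪
      {t ∈ Set.Icc T (2 * T) | δ * V < ‖primePoly (highPrimes x z) (lineCoeff x) t‖} ∪
      {t ∈ Set.Icc T (2 * T) |
        δ * V < ‖primePoly (primesUpTo ⌊√x⌋₊) (squareCoeff x) (2 * t)‖} := by
    rintro t ⟨ht, hlarge⟩
    by_contra hcon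
    simp only [Set.mem_union, Set.mem_ofPred_eq, not_or, not_and, not_lt] at hcon
    obtain ⟨⟨h1, h2⟩, h3⟩ := hcon
    have ht0 : 0 < t := hT0.trans_le ht.1
    have hxt : x ≤ t ^ 4 := by
      rw [hx, ← Real.exp_log (pow_pos ht0 4), Real.exp_le_exp, Real.log_pow]
      have h5 : l ≤ Real.log t := hl ▸ Real.log_le_log hT0 ht.1
      have h6 : l / (δ * V) ≤ l := div_le_self hl0.le (by linarith)
      push_cast
      linarith
    have h := hlarge.trans (hzeta hRH x t hx3 (by rw [abs_of_pos ht0]; linarith [ht.1]) hxt)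
    rw [Real.exp_le_exp] at h
    have h4 := hdec x z t hx3 hzx
    have h5 : Real.log (|t| + 2) / Real.log x ≤ 2 * δ * V := by
      rw [hlx, abs_of_pos ht0, div_div_eq_mul_div, div_le_iff₀ hl0]
      have : Real.log (t + 2) ≤ 2 * l := by
        rw [hl, show 2 * Real.log T = Real.log (T ^ 2) by rw [Real.log_pow]; norm_num]
        exact Real.log_le_log (by linarith) (by
          rw [sq]
          linarith [mul_le_mul_of_nonneg_right hT4 hT0.le, ht.2])
      linarith [mul_le_mul_of_nonneg_right this (show 0 ≤ δ * V by positivity)]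
    have h6 : Cd + Cz < δ * (δ * L) := by
      rw [← div_lt_iff₀' hδ, add_comm]
      linarith
    have h7 : δ * (δ * L) ≤ δ * V := mul_le_mul_of_nonneg_left hV hδ.le
    have := h1 ht
    have := h2 ht
    have := h3 ht
    rw [ha] at *
    linarith [mul_pos hδ hV0]
  -- the sum up to `z`
  obtain ⟨n, hn⟩ : ∃ n : ℝ, n = 2 * m + 2 := ⟨_, rfl⟩
  obtain ⟨s, hs⟩ : ∃ s, s = L + Cv := ⟨_, rfl⟩
  have hs1 : 1 ≤ s := by rw [hs]; linarith
  have hsδ : s ≤ (1 + δ) * L := by rw [hs]; linarith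
  obtain ⟨X, hX⟩ : ∃ X, X = min (a ^ 2 / s) (n * V) := ⟨_, rfl⟩
  have hX1 : 1 ≤ X := by
    rw [hX, le_min_iff, le_div_iff₀ (by linarith)]
    refine ⟨?_, one_le_mul_of_one_le_of_one_le (by linarith) (by linarith)⟩
    have h1 : δ * L / 2 ≤ a := by linarith
    have h2 : (δ * L / 2) ^ 2 ≤ a ^ 2 := pow_le_pow_left₀ (by positivity) h1 2
    linarith [mul_le_mul_of_nonneg_right hR1 (show 0 ≤ L by linarith),
      mul_le_mul_of_nonneg_right hδ1 (show 0 ≤ L by linarith)]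
  have hq1 : 1 ≤ ⌊X⌋₊ := Nat.le_floor (by simpa using hX1)
  have hq : ((⌊X⌋₊ : ℕ) : ℝ) ≤ X := Nat.floor_le (by linarith)
  have hA1 : volume {t ∈ Set.Icc T (2 * T) | a < ‖primePoly (primesUpTo ⌊z⌋₊) (lineCoeff x) t‖} ≤
      ENNReal.ofReal (5 * Real.exp 1 * (Real.exp 1 / δ) * T *
        (Real.exp (-((1 - 13 * δ) * (V : ℝ) ^ 2 / L)) + Real.exp (-((m : ℝ) * V)))) := by
    refine (volume_gt_le (c := 0) (continuous_primePoly _ _) hq1 (s := s) (by linarith) hT0.le
      (integral_norm_pow_le (B := ⌊z⌋₊) (fun p hp => (mem_primesUpTo.1 hp).1)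
        (fun p hp => (mem_primesUpTo.1 hp).2) (fun p hp => (lineCoeff_mem hx3
          (mem_primesUpTo.1 hp).1.one_le (prime_le_self hzx (by linarith) hp)).1)
        (fun p hp => (lineCoeff_mem hx3 (mem_primesUpTo.1 hp).1.one_le
          (prime_le_self hzx (by linarith) hp)).2.trans ?_) hq1 hs1
        ((hv1 x z T hx3 hzx hzT (by linarith)).trans (by rw [hs, hL, hl])) hT0.le ?_)
      (lt_of_lt_of_le (by linarith) haV) ?_).trans (ENNReal.ofReal_le_ofReal ?_)
    · exact div_le_one_of_le₀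
        (Real.one_le_sqrt.2 (Nat.one_le_cast.2 (mem_primesUpTo.1 hp).1.one_le))
        (Real.sqrt_nonneg _)
    · refine (pow_le_pow_left₀ (Nat.cast_nonneg _)
        (Nat.floor_le (hz ▸ (Real.exp_pos _).le)) _).trans ?_
      rw [hz, ← Real.exp_nat_mul, ← Real.exp_log hT0, ← hl, Real.exp_le_exp, mul_div_assoc',
        div_le_iff₀ (by positivity)]
      push_cast
      have h1 : X ≤ n * V := hX ▸ min_le_right _ _
      have h2 : 3 * (n * V) ≤ δ * V * L := by
        rw [hn]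
        linarith [mul_le_mul_of_nonneg_left hR3 hV0.le]
      rw [mul_comm l]
      exact mul_le_mul_of_nonneg_right (by linarith) hl0.le
    · rw [neg_zero, Real.exp_zero, mul_one]
      refine (mul_le_mul_of_nonneg_right hq (by linarith)).trans ?_
      rw [← le_div_iff₀ (by linarith)]
      exact hX ▸ min_le_left _ _
    · rw [add_zero, one_mul]
      have h1 : Real.exp (-((⌊X⌋₊ : ℕ) : ℝ)) ≤ Real.exp 1 * Real.exp (-X) := by
        rw [← Real.exp_add, Real.exp_le_exp]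
        linarith [Nat.lt_floor_add_one X]
      have h2 : ((⌊X⌋₊ : ℕ) : ℝ) * Real.exp (-((⌊X⌋₊ : ℕ) : ℝ)) ≤
          Real.exp 1 * (Real.exp (-((1 - δ) * X)) / δ) := by
        refine (mul_le_mul hq h1 (Real.exp_pos _).le (by linarith)).trans ?_
        rw [mul_left_comm]
        exact mul_le_mul_of_nonneg_left (mul_exp_neg_le hδ) (Real.exp_pos 1).le
      have h3 : Real.exp (-((1 - δ) * X)) ≤
          Real.exp (-((1 - 13 * δ) * (V : ℝ) ^ 2 / L)) + Real.exp (-((m : ℝ) * V)) := by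
        rw [hX]
        refine exp_neg_mul_min_le.trans (add_le_add ?_ ?_) <;>
          rw [Real.exp_le_exp, neg_le_neg_iff]
        · rw [ha, mul_div_assoc', div_le_div_iff₀ (by linarith) (by linarith)]
          have h4 : (1 - 13 * δ) * (1 + δ) ≤ (1 - δ) * (1 - 5 * δ) ^ 2 := by
            linarith [mul_nonneg (mul_nonneg hδ.le hδ.le) (show 0 ≤ 1 - δ by linarith), sq_nonneg δ]
          calc (1 - 13 * δ) * (V : ℝ) ^ 2 * s ≤ (1 - 13 * δ) * (V : ℝ) ^ 2 * ((1 + δ) * L) :=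
                mul_le_mul_of_nonneg_left hsδ (mul_nonneg (by linarith) (sq_nonneg _))
            _ = (1 - 13 * δ) * (1 + δ) * ((V : ℝ) ^ 2 * L) := by ring
            _ ≤ (1 - δ) * (1 - 5 * δ) ^ 2 * ((V : ℝ) ^ 2 * L) :=
                mul_le_mul_of_nonneg_right h4 (by positivity)
            _ = _ := by ring
        · rw [hn, ← mul_assoc]
          refine mul_le_mul_of_nonneg_right ?_ hV0.le
          linarith [mul_le_mul_of_nonneg_right (show δ ≤ 1 / 2 by linarith)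
            (show 0 ≤ 2 * (m : ℝ) + 2 by linarith)]
      calc 5 * Real.exp 1 * T * ((⌊X⌋₊ : ℕ) : ℝ) * Real.exp (-((⌊X⌋₊ : ℕ) : ℝ))
          = 5 * Real.exp 1 * T * (((⌊X⌋₊ : ℕ) : ℝ) * Real.exp (-((⌊X⌋₊ : ℕ) : ℝ))) := by ring
        _ ≤ 5 * Real.exp 1 * T * (Real.exp 1 *
            ((Real.exp (-((1 - 13 * δ) * (V : ℝ) ^ 2 / L)) + Real.exp (-((m : ℝ) * V))) / δ)) :=
            mul_le_mul_of_nonneg_left (h2.trans (mul_le_mul_of_nonneg_left
              (div_le_div_of_nonneg_right h3 hδ.le) (Real.exp_pos 1).le)) (by positivity)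
        _ = _ := by ring
  -- the two small sums
  obtain ⟨q, hqq⟩ : ∃ q : ℕ, q = ⌈δ * V / 9⌉₊ := ⟨_, rfl⟩
  have hq0 : 1 ≤ q := hqq ▸ Nat.one_le_ceil_iff.2 (by positivity)
  have hqlo : δ * V / 9 ≤ q := hqq ▸ Nat.le_ceil _
  have hqhi : (q : ℝ) ≤ δ * V / 8 := by
    have := hqq ▸ Nat.ceil_lt_add_one (show 0 ≤ δ * V / 9 by positivity)
    linarith
  obtain ⟨w, hw⟩ : ∃ w, w = Real.log L + Cv + 1 := ⟨_, rfl⟩
  have hw1 : 1 ≤ w := by rw [hw]; linarith [Real.log_nonneg hL1]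
  have hsmall : ∀ g : ℝ → ℂ, Continuous g →
      (∫ t in T..2 * T, ‖g t‖ ^ (2 * q) ≤ 5 * T * (q.factorial * w ^ q)) →
      volume {t ∈ Set.Icc T (2 * T) | δ * V < ‖g t‖} ≤
        ENNReal.ofReal (5 * Real.exp 1 * T * Real.exp (-((m : ℝ) * V))) := fun g hg hI => by
    refine (volume_gt_le (c := c) hg hq0 (by linarith) hT0.le hI (by positivity) ?_).trans
      (ENNReal.ofReal_le_ofReal ?_)
    · refine (mul_le_mul hqhi (show w ≤ 8 * δ * V * Real.exp (-c) from ?_) (by linarith)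
        (by positivity)).trans (le_of_eq (by ring))
      calc w ≤ 8 * δ ^ 2 * Real.exp (-c) * L := by rw [hw]; linarith
        _ = 8 * δ * Real.exp (-c) * (δ * L) := by ring
        _ ≤ 8 * δ * Real.exp (-c) * V := mul_le_mul_of_nonneg_left hV (by positivity)
        _ = _ := by ring
    · rw [mul_assoc _ (q : ℝ)]
      refine mul_le_mul_of_nonneg_left ?_ (by positivity)
      have h1 : (q : ℝ) ≤ Real.exp V := by linarith [Real.add_one_le_exp (V : ℝ)]
      have h2 : ((m : ℝ) + 2) * V ≤ (1 + c) * q := by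
        calc ((m : ℝ) + 2) * V = c * (δ * V / 9) := by rw [hc]; field_simp
          _ ≤ c * q := mul_le_mul_of_nonneg_left hqlo hc0
          _ ≤ _ := mul_le_mul_of_nonneg_right (by linarith) (Nat.cast_nonneg q)
      refine (mul_le_mul h1 (Real.exp_le_exp.2 (neg_le_neg h2)) (Real.exp_pos _).le
        (Real.exp_pos _).le).trans ?_
      rw [← Real.exp_add, Real.exp_le_exp]
      linarith
  have hpowx : x ^ (3 * q) ≤ T := by
    rw [hx, ← Real.exp_nat_mul, ← Real.exp_log hT0, ← hl, Real.exp_le_exp, mul_div_assoc',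
      div_le_iff₀ (by positivity), mul_comm l]
    push_cast
    exact mul_le_mul_of_nonneg_right (by linarith [show 0 ≤ δ * V by positivity]) hl0.le
  have hA2 := hsmall _ (continuous_primePoly (highPrimes x z) (lineCoeff x))
    (integral_norm_pow_le (B := ⌊x⌋₊)
      (fun p hp => (mem_primesUpTo.1 (Finset.sdiff_subset hp)).1)
      (fun p hp => (mem_primesUpTo.1 (Finset.sdiff_subset hp)).2)
      (fun p hp => (lineCoeff_mem hx3 (mem_primesUpTo.1 (Finset.sdiff_subset hp)).1.one_le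
        (prime_le_self le_rfl (by linarith) (Finset.sdiff_subset hp))).1)
      (fun p hp => (lineCoeff_mem hx3 (mem_primesUpTo.1 (Finset.sdiff_subset hp)).1.one_le
        (prime_le_self le_rfl (by linarith) (Finset.sdiff_subset hp))).2.trans
          (div_le_one_of_le₀ (Real.one_le_sqrt.2 (Nat.one_le_cast.2
            (mem_primesUpTo.1 (Finset.sdiff_subset hp)).1.one_le)) (Real.sqrt_nonneg _)))
      hq0 hw1 ((hv2 x z L hx3 (hz ▸ Real.exp_pos _) hzx hL1 hzlog).trans (by rw [hw]; linarith))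
      hT0.le ((pow_le_pow_left₀ (Nat.cast_nonneg _) (Nat.floor_le (by linarith)) _).trans hpowx))
  have hA3 := hsmall (fun t => primePoly (primesUpTo ⌊√x⌋₊) (squareCoeff x) (2 * t))
    ((continuous_primePoly _ _).comp (continuous_const.mul continuous_id))
    (integral_norm_pow_two_mul_le (B := ⌊√x⌋₊) (fun p hp => (mem_primesUpTo.1 hp).1)
      (fun p hp => (mem_primesUpTo.1 hp).2)
      (fun p hp => (squareCoeff_mem hx3 (mem_primesUpTo.1 hp).1.one_le
        (prime_floor_sq_le (by linarith) hp)).1)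
      (fun p hp => (squareCoeff_mem hx3 (mem_primesUpTo.1 hp).1.one_le
        (prime_floor_sq_le (by linarith) hp)).2.trans (div_le_one_of_le₀
          (Nat.one_le_cast.2 (mem_primesUpTo.1 hp).1.one_le) (Nat.cast_nonneg _)))
      hq0 hw1 ((hv3 x hx3).trans (by rw [hw]; linarith [Real.log_nonneg hL1])) hT0.le
      ((pow_le_pow_left₀ (Nat.cast_nonneg _) ((Nat.floor_le (Real.sqrt_nonneg _)).trans
        ((Real.sqrt_le_left (by linarith)).2 (le_self_pow₀ (by linarith) two_ne_zero))) _).trans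
          hpowx))
  refine ((measure_mono hsub).trans ((measure_union_le _ _).trans (add_le_add
    ((measure_union_le _ _).trans (add_le_add hA1 hA2)) hA3))).trans ?_
  rw [← ENNReal.ofReal_add (by positivity) (by positivity),
    ← ENNReal.ofReal_add (by positivity) (by positivity)]
  refine ENNReal.ofReal_le_ofReal ?_
  rw [hC]
  linarith [mul_nonneg (show 0 ≤ 10 * Real.exp 1 * T by positivity)
    (Real.exp_pos (-((1 - 13 * δ) * (V : ℝ) ^ 2 / L))).le]

end FA.ZetaUpper
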